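import Mathlib
import Fermat.Agent.BR3.VertResField
import Fermat.Agent.BR3.PlaceOnto
import Fermat.Agent.BR3.CoverPlaces
import Fermat.Agent.FF.PreludeBridge
import Fermat.Agent.BR.P1Places
import Fermat.Agent.BR.Centre
import Fermat.Agent.BR3.RiemannPkgExt
import Fermat.Agent.Val.ValUnique

/-!
# Program C (S36), node (SC-ZE), file 1: the ordinary points of the residue curve of `z e`

`L = AdjoinRoot (vertBar q β ρ)` over `κ = RatFunc k`, `vertBar q β ρ = X^q + (β T) X^(q-1) - ρ/(β T)`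
(`BR3/VertResidue`), `k` algebraically closed of characteristic `q`, `β, ρ ≠ 0`.
For `cb ≠ 0` the specialisation `specPoly q β ρ cb = X^q + (β cb) X^(q-1) - ρ/(β cb) ∈ k[X]` of
`vertBar` at `T = cb` is separable, with `q` distinct roots `ub`; over the place `T = cb` of `κ` the
curve has exactly `q` points `Q`, indexed by the roots (`Ũ(Q) = ub`), all unramified.
-/

set_option autoImplicit false

noncomputable section

namespace Fermat.Agent.BR3.VertSheet

open Polynomial AlgebraicCurve Fermat.Agent.Red Fermat.Agent.BR.P1 Fermat.Agent.BR.Centre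
  Fermat.Agent.BR3.VertResidue Fermat.Agent.BR3.VertResField Fermat.Agent.FF

/-! ### trinomials `X^q + B X^(q-1) + A` in characteristic `q` -/

section TrinomialRing

variable {R : Type*} [CommRing R] (q : ℕ)

theorem trinomial_degree_lt (hq : 2 ≤ q) (B A : R) :
    (C B * X ^ (q - 1) + C A : R[X]).degree < (q : WithBot ℕ) := by
  refine lt_of_le_of_lt (degree_add_le _ _) (max_lt ?_ ?_)
  · refine lt_of_le_of_lt (degree_C_mul_X_pow_le _ _) ?_
    exact_mod_cast (by omega : q - 1 < q)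
  · refine lt_of_le_of_lt degree_C_le ?_
    exact_mod_cast (by omega : 0 < q)

theorem trinomial_monic (hq : 2 ≤ q) (B A : R) : (X ^ q + C B * X ^ (q - 1) + C A : R[X]).Monic := by
  rw [add_assoc]
  exact monic_X_pow_add (trinomial_degree_lt q hq B A)

theorem trinomial_natDegree [Nontrivial R] (hq : 2 ≤ q) (B A : R) :
    (X ^ q + C B * X ^ (q - 1) + C A : R[X]).natDegree = q := by
  rw [add_assoc, natDegree_add_eq_left_of_degree_lt, natDegree_X_pow]
  rw [degree_X_pow]
  exact trinomial_degree_lt q hq B A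

theorem aeval_trinomial {S : Type*} [CommRing S] [Algebra R S] (x : S) (B A : R) :
    aeval x (X ^ q + C B * X ^ (q - 1) + C A : R[X]) =
      x ^ q + algebraMap R S B * x ^ (q - 1) + algebraMap R S A := by
  simp

end TrinomialRing

section Trinomial

variable {κ : Type*} [Field κ] (q : ℕ) [CharP κ q]

theorem derivative_trinomial (hq : 2 ≤ q) (B A : κ) :
    derivative (X ^ q + C B * X ^ (q - 1) + C A : κ[X]) = -(C B * X ^ (q - 2)) := by
  have hq0 : ((q : ℕ) : κ) = 0 := CharP.cast_eq_zero _ q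
  have hq1 : (((q - 1 : ℕ)) : κ) = -1 := by
    have h : ((q - 1 : ℕ) : κ) + 1 = 0 := by
      have : ((q - 1 + 1 : ℕ) : κ) = 0 := by
        rw [show q - 1 + 1 = q by omega]; exact hq0
      rwa [Nat.cast_succ] at this
    exact eq_neg_of_add_eq_zero_left h
  have hq2 : q - 1 - 1 = q - 2 := by omega
  simp only [derivative_add, derivative_mul, derivative_C, derivative_X_pow, zero_mul, zero_add,
    add_zero, hq2]
  rw [hq0, C_0, zero_mul, zero_add, hq1]
  simp only [C_neg, C_1]
  ring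

theorem separable_trinomial (hq : 2 ≤ q) {B A : κ} (hB : B ≠ 0) (hA : A ≠ 0) :
    (X ^ q + C B * X ^ (q - 1) + C A : κ[X]).Separable := by
  rw [separable_def, derivative_trinomial q hq]
  refine ⟨C A⁻¹, C (A * B)⁻¹ * (X ^ 2 + C B * X), ?_⟩
  have h1 : q = (q - 2) + 2 := by omega
  have h2 : q - 1 = (q - 2) + 1 := by omega
  have e : (X ^ q + C B * X ^ (q - 1) + C A : κ[X]) = X ^ (q - 2) * (X ^ 2 + C B * X) + C A := by
    nth_rewrite 1 [h1]
    rw [h2]
    ring
  rw [e]
  have hAB : A * B ≠ 0 := mul_ne_zero hA hB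
  have e3 : (C A⁻¹ : κ[X]) * C A = 1 := by
    rw [← C_mul, inv_mul_cancel₀ hA, C_1]
  have e4 : (C (A * B)⁻¹ : κ[X]) * C B = C A⁻¹ := by
    rw [← C_mul]
    congr 1
    field_simp
  calc C A⁻¹ * (X ^ (q - 2) * (X ^ 2 + C B * X) + C A) +
        C (A * B)⁻¹ * (X ^ 2 + C B * X) * -(C B * X ^ (q - 2))
      = (C A⁻¹ - C (A * B)⁻¹ * C B) * (X ^ (q - 2) * (X ^ 2 + C B * X)) + C A⁻¹ * C A := by ring
    _ = 1 := by rw [e4, sub_self, zero_mul, zero_add, e3]

end Trinomial

/-! ### the specialisation of `vertBar` at `T = cb` -/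

section Spec

variable {k : Type*} [Field k]

/-- The specialisation of `vertBar q β ρ` at `T = cb`. -/
def specPoly (q : ℕ) (β ρ cb : k) : k[X] :=
  X ^ q + C (β * cb) * X ^ (q - 1) + C (-(ρ / (β * cb)))

variable {q : ℕ} {β ρ cb : k}

theorem specPoly_monic (hq : 2 ≤ q) : (specPoly q β ρ cb).Monic := trinomial_monic q hq _ _

theorem specPoly_natDegree (hq : 2 ≤ q) : (specPoly q β ρ cb).natDegree = q :=
  trinomial_natDegree q hq _ _

theorem specPoly_ne_zero (hq : 2 ≤ q) : specPoly q β ρ cb ≠ 0 := (specPoly_monic hq).ne_zero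

theorem eval_specPoly (ub : k) :
    (specPoly q β ρ cb).eval ub = ub ^ q + β * cb * ub ^ (q - 1) - ρ / (β * cb) := by
  simp [specPoly, sub_eq_add_neg]

/-- `0` is not a root of the specialisation. -/
theorem ne_zero_of_isRoot_specPoly (hq : 2 ≤ q) (hβ : β ≠ 0) (hρ : ρ ≠ 0) (hcb : cb ≠ 0) {ub : k}
    (h : (specPoly q β ρ cb).IsRoot ub) : ub ≠ 0 := by
  rintro rfl
  rw [IsRoot, eval_specPoly, zero_pow (by omega), zero_pow (by omega), mul_zero, zero_add,
    zero_sub, neg_eq_zero] at h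
  exact div_ne_zero hρ (mul_ne_zero hβ hcb) h

theorem specPoly_separable [CharP k q] (hq : 2 ≤ q) (hβ : β ≠ 0) (hρ : ρ ≠ 0) (hcb : cb ≠ 0) :
    (specPoly q β ρ cb).Separable :=
  separable_trinomial q hq (mul_ne_zero hβ hcb)
    (neg_ne_zero.mpr (div_ne_zero hρ (mul_ne_zero hβ hcb)))

open scoped Classical in
/-- **The specialisation has `q` distinct roots.** -/
theorem card_roots_specPoly [IsAlgClosed k] [CharP k q] (hq : 2 ≤ q) (hβ : β ≠ 0) (hρ : ρ ≠ 0)
    (hcb : cb ≠ 0) : (specPoly q β ρ cb).roots.toFinset.card = q := by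
  rw [Multiset.toFinset_card_of_nodup (nodup_roots (specPoly_separable hq hβ hρ hcb)),
    splits_iff_card_roots.mp (IsAlgClosed.splits (specPoly q β ρ cb)), specPoly_natDegree hq]

open scoped Classical in
theorem mem_roots_specPoly (hq : 2 ≤ q) {ub : k} :
    ub ∈ (specPoly q β ρ cb).roots.toFinset ↔ (specPoly q β ρ cb).IsRoot ub := by
  rw [Multiset.mem_toFinset, mem_roots (specPoly_ne_zero hq)]

end Spec

/-! ### the residue curve as a cover of the line -/

section Curve

variable {k : Type*} [Field k] {q : ℕ} {β ρ : k} [hP : Fact (Irreducible (vertBar q β ρ))]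

local notation "κ" => RatFunc k
local notation "L" => AdjoinRoot (vertBar q β ρ)
local notation "Ub" => AdjoinRoot.root (vertBar q β ρ)

theorem vertBar_ne_zero : vertBar q β ρ ≠ 0 := hP.out.ne_zero

instance finiteDimensional_vert : FiniteDimensional κ L :=
  (AdjoinRoot.powerBasis (vertBar_ne_zero (q := q) (β := β) (ρ := ρ))).finite

theorem finrank_vert (hq : 2 ≤ q) : Module.finrank κ L = q := by
  rw [(AdjoinRoot.powerBasis (vertBar_ne_zero (q := q) (β := β) (ρ := ρ))).finrank,
    AdjoinRoot.powerBasis_dim, vertBar_natDegree hq]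

theorem minpoly_root_vert (hq : 2 ≤ q) : minpoly κ Ub = vertBar q β ρ := by
  rw [AdjoinRoot.minpoly_root (vertBar_ne_zero (q := q) (β := β) (ρ := ρ)),
    (vertBar_monic hq).leadingCoeff, inv_one, C_1, mul_one]

/-- The residue curve of `z e` is separable over the line. -/
theorem isSeparable_vert [CharP k q] (hq : 2 ≤ q) (hβ : β ≠ 0) (hρ : ρ ≠ 0) :
    Algebra.IsSeparable κ L := by
  have hsep : IsSeparable κ Ub := by
    rw [IsSeparable, minpoly_root_vert hq]
    exact vertBar_separable hq hβ hρ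
  have h1 : Algebra.IsSeparable κ (IntermediateField.adjoin κ {Ub}) :=
    (IntermediateField.isSeparable_adjoin_simple_iff_isSeparable _ _).mpr hsep
  have htop : IntermediateField.adjoin κ {Ub} = ⊤ := by
    have hint : IsAlgebraic κ Ub := (Algebra.IsIntegral.isIntegral _).isAlgebraic
    rw [← IntermediateField.toSubalgebra_injective.eq_iff,
      IntermediateField.adjoin_simple_toSubalgebra_of_isAlgebraic hint,
      IntermediateField.top_toSubalgebra]
    exact AdjoinRoot.adjoinRoot_eq_top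
  rw [htop] at h1
  exact Algebra.IsSeparable.of_algHom κ (⊤ : IntermediateField κ L)
    (IntermediateField.topEquiv (F := κ) (E := L)).symm.toAlgHom

/-- The Riemann package of the residue curve of `z e`, uniformly in `q` (as a finite separable
extension of the line). -/
theorem riemannPkg_vert_line [IsAlgClosed k] [CharP k q] (hq : 2 ≤ q) (hβ : β ≠ 0) (hρ : ρ ≠ 0) :
    RiemannPkg k L := by
  have hsep := isSeparable_vert (q := q) hq hβ hρ
  exact Fermat.Agent.BR3.RiemannPkgExt.riemannPkg_of_finite_separable_ratFunc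

theorem aeval_root_vertBar : aeval Ub (vertBar q β ρ) = 0 := by
  rw [AdjoinRoot.aeval_eq, AdjoinRoot.mk_self]

theorem gen_vert (y : L) : ∃ p : κ[X], aeval Ub p = y := by
  obtain ⟨p, rfl⟩ := AdjoinRoot.mk_surjective y
  exact ⟨p, AdjoinRoot.aeval_eq p⟩

end Curve

/-! ### the points over `T = cb`, `cb ≠ 0` -/

section Places

variable {k : Type*} [Field k] [IsAlgClosed k] {q : ℕ} [CharP k q] {β ρ : k}
  [hP : Fact (Irreducible (vertBar q β ρ))] {cb : k}

local notation "κ" => RatFunc k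
local notation "L" => AdjoinRoot (vertBar q β ρ)
local notation "Ub" => AdjoinRoot.root (vertBar q β ρ)

omit [CharP k q] in
/-- The value at a place over `T = cb` of a function of the line. -/
theorem isValueAt_of_restrict {Q : Place k L} (hQ : Q.restrict κ = placeAt k cb) {f : κ} {c : k}
    (hf : IsValueAt (placeAt k cb) f c) : IsValueAt Q (algebraMap κ L f) c :=
  (CoverPlaces.isValueAt_restrict_iff Q f c).mp (hQ ▸ hf)

omit [CharP k q] hP in
theorem isValueAt_B : IsValueAt (placeAt k cb) (RatFunc.C β * RatFunc.X : κ) (β * cb) := by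
  have h1 : IsValueAt (placeAt k cb) (RatFunc.C β : κ) β := by
    rw [← RatFunc.algebraMap_eq_C]
    exact isValueAt_algebraMap _ _
  refine h1.mul ?_
  rw [isValueAt_iff, RatFunc.algebraMap_eq_C, ord_placeAt_X_sub]
  exact Or.inr one_pos

omit [CharP k q] hP in
theorem isValueAt_A (hβ : β ≠ 0) (hcb : cb ≠ 0) :
    IsValueAt (placeAt k cb) (-(RatFunc.C ρ / (RatFunc.C β * RatFunc.X)) : κ)
      (-(ρ / (β * cb))) := by
  have h1 : IsValueAt (placeAt k cb) (RatFunc.C ρ : κ) ρ := by
    rw [← RatFunc.algebraMap_eq_C]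
    exact isValueAt_algebraMap _ _
  have h2 := Fermat.Agent.BR.Centre.IsValueAt.inv (isValueAt_B (β := β) (cb := cb))
    (mul_ne_zero hβ hcb)
  have h3 := (h1.mul h2).neg
  rwa [← div_eq_mul_inv, ← div_eq_mul_inv] at h3

omit [CharP k q] hP in
/-- The value at `T = cb` of `vertBar(ub)` is `specPoly(ub)`. -/
theorem isValueAt_eval_vertBar (hβ : β ≠ 0) (hcb : cb ≠ 0) (ub : k) :
    IsValueAt (placeAt k cb) ((vertBar q β ρ).eval (algebraMap k κ ub))
      ((specPoly q β ρ cb).eval ub) := by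
  have h0 : IsValueAt (placeAt k cb) (algebraMap k κ ub) ub := isValueAt_algebraMap _ _
  have e1 : (vertBar q β ρ).eval (algebraMap k κ ub) =
      algebraMap k κ ub ^ q + RatFunc.C β * RatFunc.X * algebraMap k κ ub ^ (q - 1) +
        -(RatFunc.C ρ / (RatFunc.C β * RatFunc.X)) := by
    simp [vertBar]
  have e2 : (specPoly q β ρ cb).eval ub = ub ^ q + β * cb * ub ^ (q - 1) + -(ρ / (β * cb)) := by
    simp [specPoly]
  rw [e1, e2]
  exact ((h0.pow q).add (isValueAt_B.mul (h0.pow (q - 1)))).add (isValueAt_A hβ hcb)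

/-- **Existence**: over `T = cb` there is a point with `Ũ = ub`, for every root `ub` of the
specialisation. -/
theorem exists_ordinaryPoint (hq : 2 ≤ q) (hβ : β ≠ 0) (hρ : ρ ≠ 0) (hcb : cb ≠ 0) {ub : k}
    (hub : (specPoly q β ρ cb).IsRoot ub) :
    ∃ Q : Place k L, Q.restrict κ = placeAt k cb ∧ IsValueAt Q Ub ub := by
  have hsep := isSeparable_vert (q := q) hq hβ hρ
  have h := isValueAt_eval_vertBar (q := q) (ρ := ρ) hβ hcb ub
  rw [hub] at h
  exact PlaceOnto.exists_place_over_isValueAt (K := k) (F' := κ) (F'' := L) (placeAt k cb)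
    (θ := Ub) (Ψ := vertBar q β ρ) (vertBar_monic hq) hP.out aeval_root_vertBar gen_vert h

omit [CharP k q] in
/-- The generator `Ũ` is regular at every point over `T = cb`. -/
theorem root_mem_of_restrict (hq : 2 ≤ q) (hβ : β ≠ 0) (hcb : cb ≠ 0) {Q : Place k L}
    (hQ : Q.restrict κ = placeAt k cb) : Ub ∈ Q.toValuationSubring := by
  have hO : Q.toValuationSubring.comap (algebraMap κ L) = (placeAt k cb).toValuationSubring := by
    rw [← hQ]
    rfl
  refine Fermat.Agent.Val.mem_of_isIntegralElem hO ?_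
  have hB : (RatFunc.C β * RatFunc.X : κ) ∈ (placeAt k cb).toValuationSubring :=
    (isValueAt_B (β := β) (cb := cb)).mem
  have hA : (-(RatFunc.C ρ / (RatFunc.C β * RatFunc.X)) : κ) ∈
      (placeAt k cb).toValuationSubring := (isValueAt_A (ρ := ρ) hβ hcb).mem
  refine ⟨X ^ q + C ⟨_, hB⟩ * X ^ (q - 1) + C ⟨_, hA⟩, trinomial_monic q hq _ _, ?_⟩
  have h0 : Ub ^ q + algebraMap κ L (RatFunc.C β * RatFunc.X) * Ub ^ (q - 1) +
      algebraMap κ L (-(RatFunc.C ρ / (RatFunc.C β * RatFunc.X))) = 0 :=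
    (aeval_trinomial q Ub _ _).symm.trans (aeval_root_vertBar (q := q) (β := β) (ρ := ρ))
  simp only [eval₂_add, eval₂_mul, eval₂_pow, eval₂_X, eval₂_C]
  exact h0

/-- **Every point over `T = cb` is one of the points `Ũ = ub`**, `ub` a root of the
specialisation. -/
theorem exists_root_of_restrict (hq : 2 ≤ q) (hβ : β ≠ 0) (hρ : ρ ≠ 0) (hcb : cb ≠ 0)
    {Q : Place k L} (hQ : Q.restrict κ = placeAt k cb) :
    ∃ ub : k, (specPoly q β ρ cb).IsRoot ub ∧ IsValueAt Q Ub ub := by
  have hpkg := riemannPkg_vert_line (q := q) hq hβ hρ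
  obtain ⟨ub, hub⟩ := exists_isValueAt Q (hpkg.deg_one Q) (root_mem_of_restrict hq hβ hcb hQ)
  refine ⟨ub, ?_, hub⟩
  have h0 := aeval_root_vertBar (q := q) (β := β) (ρ := ρ)
  have e1 : aeval Ub (vertBar q β ρ) =
      Ub ^ q + algebraMap κ L (RatFunc.C β * RatFunc.X) * Ub ^ (q - 1) +
        algebraMap κ L (-(RatFunc.C ρ / (RatFunc.C β * RatFunc.X))) :=
    aeval_trinomial q Ub _ _
  have h1 : IsValueAt Q (aeval Ub (vertBar q β ρ))
      (ub ^ q + β * cb * ub ^ (q - 1) + -(ρ / (β * cb))) := by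
    rw [e1]
    exact ((hub.pow q).add ((isValueAt_of_restrict hQ isValueAt_B).mul (hub.pow (q - 1)))).add
      (isValueAt_of_restrict hQ (isValueAt_A hβ hcb))
  rw [h0] at h1
  have h2 := h1.unique (isValueAt_zero Q)
  rw [IsRoot, eval_specPoly, sub_eq_add_neg]
  exact h2

/-- The point over `T = cb` with `Ũ = ub` (a choice; unique by `eq_of_isValueAt`). -/
def ordinaryPoint (hq : 2 ≤ q) (hβ : β ≠ 0) (hρ : ρ ≠ 0) (hcb : cb ≠ 0) (ub : k)
    (hub : (specPoly q β ρ cb).IsRoot ub) : Place k L :=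
  (exists_ordinaryPoint hq hβ hρ hcb hub).choose

theorem ordinaryPoint_restrict (hq : 2 ≤ q) (hβ : β ≠ 0) (hρ : ρ ≠ 0) (hcb : cb ≠ 0) (ub : k)
    (hub : (specPoly q β ρ cb).IsRoot ub) :
    (ordinaryPoint hq hβ hρ hcb ub hub).restrict κ = placeAt k cb :=
  (exists_ordinaryPoint hq hβ hρ hcb hub).choose_spec.1

theorem isValueAt_ordinaryPoint (hq : 2 ≤ q) (hβ : β ≠ 0) (hρ : ρ ≠ 0) (hcb : cb ≠ 0) (ub : k)
    (hub : (specPoly q β ρ cb).IsRoot ub) : IsValueAt (ordinaryPoint hq hβ hρ hcb ub hub) Ub ub :=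
  (exists_ordinaryPoint hq hβ hρ hcb hub).choose_spec.2

open scoped Classical in
/-- **The points over `T = cb` are exactly the `q` points `Ũ = ub`.** -/
theorem placesAbove_eq_image (hq : 2 ≤ q) (hβ : β ≠ 0) (hρ : ρ ≠ 0) (hcb : cb ≠ 0) :
    haveI := isSeparable_vert (q := q) hq hβ hρ
    placesAbove (placeAt k cb) L = (specPoly q β ρ cb).roots.toFinset.attach.image
      (fun ub => ordinaryPoint hq hβ hρ hcb ub.1 ((mem_roots_specPoly hq).mp ub.2)) ∧
    (placesAbove (placeAt k cb) L).card = q := by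
  have hsep := isSeparable_vert (q := q) hq hβ hρ
  set g : {ub // ub ∈ (specPoly q β ρ cb).roots.toFinset} → Place k L :=
    fun ub => ordinaryPoint hq hβ hρ hcb ub.1 ((mem_roots_specPoly hq).mp ub.2) with hg
  have hinj : Function.Injective g := by
    intro a b hab
    apply Subtype.ext
    have h1 := isValueAt_ordinaryPoint hq hβ hρ hcb a.1 ((mem_roots_specPoly hq).mp a.2)
    have h2 := isValueAt_ordinaryPoint hq hβ hρ hcb b.1 ((mem_roots_specPoly hq).mp b.2)
    have hab' : ordinaryPoint hq hβ hρ hcb a.1 ((mem_roots_specPoly hq).mp a.2) =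
        ordinaryPoint hq hβ hρ hcb b.1 ((mem_roots_specPoly hq).mp b.2) := hab
    rw [hab'] at h1
    exact h1.unique h2
  have hcard : ((specPoly q β ρ cb).roots.toFinset.attach.image g).card = q := by
    rw [Finset.card_image_of_injective _ hinj, Finset.card_attach,
      card_roots_specPoly hq hβ hρ hcb]
  have hsub : (specPoly q β ρ cb).roots.toFinset.attach.image g ⊆
      placesAbove (placeAt k cb) L := by
    intro Q hQ
    obtain ⟨ub, -, rfl⟩ := Finset.mem_image.mp hQ
    rw [mem_placesAbove, ← restrict_eq_comapField]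
    exact ordinaryPoint_restrict hq hβ hρ hcb ub.1 _
  have hle : (placesAbove (placeAt k cb) L).card ≤ q := by
    have := card_placesAbove_le (F' := L) (placeAt k cb)
    rwa [finrank_vert hq] at this
  have heq := Finset.eq_of_subset_of_card_le hsub (by rw [hcard]; exact hle)
  exact ⟨heq.symm, by rw [← heq, hcard]⟩

/-- **Uniqueness**: a point over `T = cb` is determined by the value of `Ũ`. -/
theorem eq_of_isValueAt (hq : 2 ≤ q) (hβ : β ≠ 0) (hρ : ρ ≠ 0) (hcb : cb ≠ 0) {Q₁ Q₂ : Place k L}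
    (hQ₁ : Q₁.restrict κ = placeAt k cb) (hQ₂ : Q₂.restrict κ = placeAt k cb) {ub : k}
    (h₁ : IsValueAt Q₁ Ub ub) (h₂ : IsValueAt Q₂ Ub ub) : Q₁ = Q₂ := by
  classical
  have hsep := isSeparable_vert (q := q) hq hβ hρ
  obtain ⟨himg, -⟩ := placesAbove_eq_image (q := q) (ρ := ρ) hq hβ hρ hcb
  have key : ∀ Q : Place k L, Q.restrict κ = placeAt k cb → IsValueAt Q Ub ub →
      ∃ hub : (specPoly q β ρ cb).IsRoot ub, Q = ordinaryPoint hq hβ hρ hcb ub hub := by
    intro Q hQ hv
    have hmem : Q ∈ placesAbove (placeAt k cb) L := by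
      rw [mem_placesAbove, ← restrict_eq_comapField]
      exact hQ
    rw [himg] at hmem
    obtain ⟨a, -, ha⟩ := Finset.mem_image.mp hmem
    have h1 := isValueAt_ordinaryPoint hq hβ hρ hcb a.1 ((mem_roots_specPoly hq).mp a.2)
    rw [ha] at h1
    have hval : a.1 = ub := h1.unique hv
    subst hval
    exact ⟨(mem_roots_specPoly hq).mp a.2, ha.symm⟩
  obtain ⟨hub₁, e₁⟩ := key Q₁ hQ₁ h₁
  obtain ⟨hub₂, e₂⟩ := key Q₂ hQ₂ h₂
  rw [e₁, e₂]

/-- **The points over `T = cb` are unramified.** -/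
theorem ramificationIndex_eq_one (hq : 2 ≤ q) (hβ : β ≠ 0) (hρ : ρ ≠ 0) (hcb : cb ≠ 0)
    {Q : Place k L} (hQ : Q.restrict κ = placeAt k cb) : Q.ramificationIndex κ = 1 := by
  classical
  have hsep := isSeparable_vert (q := q) hq hβ hρ
  have hpkg := riemannPkg_vert_line (q := q) hq hβ hρ
  obtain ⟨-, hcard⟩ := placesAbove_eq_image (q := q) (ρ := ρ) hq hβ hρ hcb
  have hsum := sum_ramIdx_of_deg_eq_one (F' := L) (placeAt k cb)
    ((Fermat.Agent.BR.POne.riemannPkg_ratFunc k).deg_one _) hpkg.deg_one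
  rw [finrank_vert hq] at hsum
  have hmem : Q ∈ placesAbove (placeAt k cb) L := by
    rw [mem_placesAbove, ← restrict_eq_comapField]
    exact hQ
  have hone : ∀ w ∈ placesAbove (placeAt k cb) L, 1 ≤ ramIdx κ w := fun w _ => ramIdx_pos w
  have hiff := (Finset.sum_eq_sum_iff_of_le hone).mp (by
    rw [Finset.sum_const, smul_eq_mul, mul_one, hcard, hsum])
  rw [ramificationIndex_eq_ramIdx]
  exact (hiff Q hmem).symm

/-- `CoverSheet.ord_map` at the points over `T = cb`. -/
theorem ord_map (hq : 2 ≤ q) (hβ : β ≠ 0) (hρ : ρ ≠ 0) (hcb : cb ≠ 0) {Q : Place k L}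
    (hQ : Q.restrict κ = placeAt k cb) (f : κ) :
    Q.ord (algebraMap κ L f) = (placeAt k cb).ord f := by
  rw [Place.ord_restrict, ramificationIndex_eq_one hq hβ hρ hcb hQ, hQ, Nat.cast_one, one_mul]

/-- The fibre over `T = cb` has `q` points (Prelude's `Place.fiber`). -/
theorem card_fiber [HasPrincipalDivisors k L] (hq : 2 ≤ q) (hβ : β ≠ 0) (hρ : ρ ≠ 0)
    (hcb : cb ≠ 0) : ((placeAt k cb).fiber L).card = q := by
  have hsep := isSeparable_vert (q := q) hq hβ hρ
  rw [fiber_eq_placesAbove]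
  exact (placesAbove_eq_image (q := q) (ρ := ρ) hq hβ hρ hcb).2

/-- The value of the derivative of `vertBar` at a point with `Ũ = ub`. -/
theorem isValueAt_derivative (hq : 2 ≤ q) {Q : Place k L} (hQ : Q.restrict κ = placeAt k cb)
    {ub : k} (hub : IsValueAt Q Ub ub) :
    IsValueAt Q (aeval Ub (derivative (vertBar q β ρ))) (-(β * cb * ub ^ (q - 2))) := by
  have : CharP κ q := charP_of_injective_algebraMap (algebraMap k κ).injective q
  have hder : derivative (vertBar q β ρ) = -(C (RatFunc.C β * RatFunc.X) * X ^ (q - 2)) :=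
    derivative_trinomial q hq _ _
  rw [hder, map_neg, map_mul, aeval_C, map_pow, aeval_X]
  exact ((isValueAt_of_restrict hQ isValueAt_B).mul (hub.pow (q - 2))).neg

/-- `CoverSheet.simple` at the points over `T = cb`: `Ũ` is a simple root there. -/
theorem simple (hq : 2 ≤ q) (hβ : β ≠ 0) (hρ : ρ ≠ 0) (hcb : cb ≠ 0) {Q : Place k L}
    (hQ : Q.restrict κ = placeAt k cb) :
    ¬ Q.adicValuation (aeval Ub (derivative (vertBar q β ρ))) < 1 := by
  obtain ⟨ub, hroot, hub⟩ := exists_root_of_restrict hq hβ hρ hcb hQ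
  have hub0 : ub ≠ 0 := ne_zero_of_isRoot_specPoly hq hβ hρ hcb hroot
  have h1 := (isValueAt_derivative (ρ := ρ) hq hQ hub).adicValuation_eq_one
    (neg_ne_zero.mpr (mul_ne_zero (mul_ne_zero hβ hcb) (pow_ne_zero _ hub0)))
  rw [h1]
  exact lt_irrefl _

end Places

end Fermat.Agent.BR3.VertSheet
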