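import Mathlib
import Fermat.Agent.BR3.VertSheet.Points
import Fermat.Agent.BR3.SubDiscChart
import Fermat.Agent.BR3.CoverK.Chart
import Fermat.Agent.BR3.CoverK.Inst

/-!
# Program C (S36), node (SC-ZE), file 2: the cover sheet of `z e` at an ordinary point

Abstract against the CONCLUSION of `exists_vertComponent` (`BR3/VertGlueMod`, `BR3/VertCircleMod`,
`BR3/VertFinal`): `O' = circleRing C a₀` the circle valuation of `F'` with residue map
`circleRes C a₀` onto `k(T)`, `Z` a valuation subring of `F''` over `O'` with residue map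
`resZ : Z →+* AdjoinRoot (vertBar q β ρ)` compatible with `circleRes`, `θ ∈ Z` with residue the
root, `Ψ` the minimal polynomial of `θ` (coefficients in the ring of the residue disc of class
`cb ≠ 0`).  Then for every point `Q` of the residue curve over `T = cb` (`Points.lean`) the
hypotheses `CoverK.CoverSheet` of the cover theorem A6-K hold with `ψ = Ψ`, `ψc = 1` (`f = q`).
-/

set_option autoImplicit false
set_option linter.unusedSectionVars false

noncomputable section

namespace Fermat.Agent.BR3.VertSheet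

open Polynomial AlgebraicCurve IsLocalRing Fermat.Agent.Red Fermat.Agent.BR.P1
  Fermat.Agent.BR.Centre Fermat.Agent.BR.Circle Fermat.Agent.BR.InertiaRed Fermat.Agent.BR.S0
  Fermat.Agent.BR3.VertResidue Fermat.Agent.BR3.SubDisc Fermat.Agent.BR3.CoverK
  Fermat.Agent.BR3.CoverK.Factor

/-! ### reduction of polynomial expressions in a generator -/

section Lift

variable {F' F'' κ' κ'' : Type*} [Field F'] [Field F''] [Algebra F' F''] [CommRing κ']
  [CommRing κ''] [Algebra κ' κ''] (T : Subring F') (Z' : Subring F'') (r : T →+* κ')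
  (rZ : Z' →+* κ'') (hT : ∀ y ∈ T, algebraMap F' F'' y ∈ Z')
  (hcompat : ∀ (y : T), rZ ⟨algebraMap F' F'' (y : F'), hT y y.2⟩ = algebraMap κ' κ'' (r y))

include hT in
theorem aeval_map_subtype_mem {θ : F''} (hθ : θ ∈ Z') (p₀ : T[X]) :
    aeval θ (p₀.map T.subtype) ∈ Z' := by
  induction p₀ using Polynomial.induction_on' with
  | add p r hp hr =>
    rw [Polynomial.map_add, map_add]
    exact add_mem hp hr
  | monomial n a =>
    rw [Polynomial.map_monomial, aeval_monomial]
    exact mul_mem (hT a a.2) (pow_mem hθ n)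

include hcompat in
theorem rZ_aeval_map_subtype {θ : F''} (hθ : θ ∈ Z') (p₀ : T[X]) :
    rZ ⟨aeval θ (p₀.map T.subtype), aeval_map_subtype_mem T Z' hT hθ p₀⟩ =
      aeval (rZ ⟨θ, hθ⟩) (p₀.map r) := by
  induction p₀ using Polynomial.induction_on' with
  | add p s hp hs =>
    have e : (⟨aeval θ ((p + s).map T.subtype), aeval_map_subtype_mem T Z' hT hθ (p + s)⟩ : Z') =
        ⟨aeval θ (p.map T.subtype), aeval_map_subtype_mem T Z' hT hθ p⟩ +
          ⟨aeval θ (s.map T.subtype), aeval_map_subtype_mem T Z' hT hθ s⟩ := by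
      apply Subtype.ext
      simp [Polynomial.map_add]
    rw [e, map_add, hp, hs, Polynomial.map_add, map_add]
  | monomial n a =>
    have e : (⟨aeval θ ((monomial n a).map T.subtype),
        aeval_map_subtype_mem T Z' hT hθ (monomial n a)⟩ : Z') =
        ⟨algebraMap F' F'' (a : F'), hT a a.2⟩ * ⟨θ, hθ⟩ ^ n := by
      apply Subtype.ext
      simp [Polynomial.map_monomial, aeval_monomial]
    rw [e, map_mul, map_pow, hcompat, Polynomial.map_monomial, aeval_monomial]

end Lift

/-! ### linear independence of the powers of the root -/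

section Indep

variable {k : Type*} [Field k] {q : ℕ} {β ρ : k} [hP : Fact (Irreducible (vertBar q β ρ))]

/-- Linear independence of `1, Ũ, …, Ũ^(q-1)` over `k(T)`. -/
theorem indep_root (hq : 2 ≤ q) {n : ℕ} (hn : n = q) (c : Fin n → RatFunc k)
    (h : ∑ l, algebraMap (RatFunc k) (AdjoinRoot (vertBar q β ρ)) (c l) *
      AdjoinRoot.root (vertBar q β ρ) ^ (l : ℕ) = 0) : c = 0 := by
  set p : (RatFunc k)[X] := ∑ l : Fin n, Polynomial.C (c l) * X ^ (l : ℕ) with hp
  have hdeg : p.degree < (n : WithBot ℕ) := by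
    refine lt_of_le_of_lt (degree_sum_le _ _) ?_
    refine (Finset.sup_lt_iff (WithBot.bot_lt_coe n)).mpr fun l _ => ?_
    refine lt_of_le_of_lt (degree_C_mul_X_pow_le _ _) ?_
    exact WithBot.coe_lt_coe.mpr l.2
  have h0 : aeval (AdjoinRoot.root (vertBar q β ρ)) p = 0 := by
    rw [hp, map_sum, ← h]
    refine Finset.sum_congr rfl fun l _ => ?_
    rw [map_mul, aeval_C, map_pow, aeval_X]
  have hp0 : p = 0 := by
    by_contra hne
    have h1 := minpoly.degree_le_of_ne_zero (RatFunc k)
      (AdjoinRoot.root (vertBar q β ρ)) hne h0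
    rw [minpoly_root_vert (q := q) (β := β) (ρ := ρ) hq,
      degree_eq_natDegree (vertBar_monic hq).ne_zero, vertBar_natDegree hq, ← hn] at h1
    exact absurd (lt_of_le_of_lt h1 hdeg) (lt_irrefl _)
  funext l
  have h2 : p.coeff (l : ℕ) = c l := by
    rw [hp, finsetSum_coeff, Finset.sum_eq_single l]
    · rw [coeff_C_mul, coeff_X_pow, if_pos rfl, mul_one]
    · intro j _ hj
      rw [coeff_C_mul, coeff_X_pow, if_neg (fun e => hj (Fin.ext e.symm)), mul_zero]
    · intro hl
      exact absurd (Finset.mem_univ l) hl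
  rw [← h2, hp0, coeff_zero]
  rfl

end Indep

/-! ### the constants of the circle ring -/

section Const

variable {K F : Type*} [Field K] [Field F] [Algebra K F] {A : ValuationSubring K}
  [IsAlgClosed (ResidueField A)] {T : Set (Place K F)} (C : AnnulusCore A T) (a : K)
  (ha1 : A.valuation C.thick < A.valuation a) (ha2 : A.valuation a < 1)

theorem circleRes_eq_zero_iff_mem_nonunits (x : circleRing C a ha1 ha2) :
    circleRes C a ha1 ha2 x = 0 ↔ (x : F) ∈ (circleRing C a ha1 ha2).nonunits := by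
  rw [circleRes_eq_zero_iff, ValuationSubring.coe_mem_nonunits_iff, IsLocalRing.mem_maximalIdeal,
    mem_nonunits_iff]

/-- The standing hypotheses of the cover theorem on the constants, for a circle ring. -/
theorem constHyp_circle :
    ConstHyp A (residue A) (circleRing C a ha1 ha2) (circleRes C a ha1 ha2) where
  res_const := fun c hc h => by
    rw [circleRes_algebraMap C a ha1 ha2 c hc h]
  res_eq_zero_iff := circleRes_eq_zero_iff_mem_nonunits C a ha1 ha2
  const_nonunit := fun c hc => by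
    have hcA : c ∈ A := (A.valuation_le_one_iff c).mp hc.le
    have hmem : algebraMap K F c ∈ circleRing C a ha1 ha2 :=
      (algebraMap_mem_circleRing_iff C a ha1 ha2 c).mpr hcA
    have h0 : circleRes C a ha1 ha2 ⟨algebraMap K F c, hmem⟩ = 0 := by
      rw [circleRes_algebraMap C a ha1 ha2 c hcA hmem]
      have : residue A ⟨c, hcA⟩ = 0 := by
        rw [residue_eq_zero_iff]
        exact (A.valuation_lt_one_iff ⟨c, hcA⟩).mpr hc
      rw [this, map_zero]
    exact (circleRes_eq_zero_iff_mem_nonunits C a ha1 ha2 ⟨_, hmem⟩).mp h0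
  pi_inv := fun x hx => by
    have hu : IsUnit x := by
      by_contra hnu
      exact hx ((residue_eq_zero_iff x).mpr ((IsLocalRing.mem_maximalIdeal x).mpr hnu))
    obtain ⟨y, hy⟩ := hu.exists_right_inv
    have h1 : (x : K) * (y : K) = 1 := by
      have := congrArg (fun z : A => (z : K)) hy
      simpa using this
    have h2 : (x : K)⁻¹ = (y : K) := inv_eq_of_mul_eq_one_right h1
    rw [h2]
    exact y.2
  pi_zero := fun x hx => by
    rw [residue_eq_zero_iff]
    exact (A.valuation_lt_one_iff _).mpr hx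

end Const

/-! ### the cover sheet -/

section Sheet

variable {K F' F'' : Type*} [Field K] [Field F'] [Field F''] [Algebra K F'] [Algebra K F'']
  [Algebra F' F''] [IsScalarTower K F' F''] {A : ValuationSubring K}
  [IsAlgClosed (ResidueField A)] {T' : Set (Place K F')}

variable {q : ℕ} {β ρ : ResidueField A} [hP : Fact (Irreducible (vertBar q β ρ))]
  (C : AnnulusCore A T') (a₀ : K) (ha1 : A.valuation C.thick < A.valuation a₀)
  (ha2 : A.valuation a₀ < 1) (Z : ValuationSubring F'')
  (resZ : Z →+* AdjoinRoot (vertBar q β ρ))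

/-- The hypotheses on the vertical component: the conclusion of `exists_vertComponent`. -/
structure VertComp (θ : F'') : Prop where
  comap_eq : Z.comap (algebraMap F' F'') = circleRing C a₀ ha1 ha2
  ker : ∀ z : Z, resZ z = 0 ↔ ¬ IsUnit z
  compat : ∀ (y : circleRing C a₀ ha1 ha2) (h : algebraMap F' F'' (y : F') ∈ Z),
    resZ ⟨algebraMap F' F'' (y : F'), h⟩ =
      AdjoinRoot.of (vertBar q β ρ) (circleRes C a₀ ha1 ha2 y)
  θ_mem : θ ∈ Z
  res_θ : resZ ⟨θ, θ_mem⟩ = AdjoinRoot.root (vertBar q β ρ)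

variable {C a₀ ha1 ha2 Z resZ} {θ : F''} (H : VertComp C a₀ ha1 ha2 Z resZ θ)

namespace VertComp

include H

theorem map_mem {y : F'} (hy : y ∈ circleRing C a₀ ha1 ha2) : algebraMap F' F'' y ∈ Z := by
  have : y ∈ Z.comap (algebraMap F' F'') := by rw [H.comap_eq]; exact hy
  exact this

theorem coeffs_subset {p : F'[X]} (hp : ∀ n, p.coeff n ∈ circleRing C a₀ ha1 ha2) :
    (↑p.coeffs : Set F') ⊆ (circleRing C a₀ ha1 ha2).toSubring := fun x hx => by
  obtain ⟨n, -, rfl⟩ := mem_coeffs_iff.mp hx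
  exact hp n

/-- The reduction of a polynomial with coefficients in the circle ring. -/
def red (p : F'[X]) (hp : ∀ n, p.coeff n ∈ circleRing C a₀ ha1 ha2) :
    (RatFunc (ResidueField A))[X] :=
  (p.toSubring (circleRing C a₀ ha1 ha2).toSubring (H.coeffs_subset hp)).map
    (circleRes C a₀ ha1 ha2)

theorem coeff_red (p : F'[X]) (hp : ∀ n, p.coeff n ∈ circleRing C a₀ ha1 ha2) (n : ℕ) :
    (H.red p hp).coeff n = circleRes C a₀ ha1 ha2 ⟨p.coeff n, hp n⟩ := by
  rw [red, coeff_map]
  congr 1
  apply Subtype.ext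
  exact coeff_toSubring p _ (H.coeffs_subset hp)

theorem red_monic {p : F'[X]} (hp : ∀ n, p.coeff n ∈ circleRing C a₀ ha1 ha2) (hm : p.Monic) :
    (H.red p hp).Monic :=
  ((monic_toSubring p _ (H.coeffs_subset hp)).mpr hm).map _

theorem aeval_mem {p : F'[X]} (hp : ∀ n, p.coeff n ∈ circleRing C a₀ ha1 ha2) :
    aeval θ p ∈ Z := by
  have h := aeval_map_subtype_mem (circleRing C a₀ ha1 ha2).toSubring Z.toSubring
    (fun y hy => H.map_mem hy) H.θ_mem
    (p.toSubring (circleRing C a₀ ha1 ha2).toSubring (H.coeffs_subset hp))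
  rwa [map_toSubring] at h

/-- **The residue of a polynomial expression in `θ`** is the reduced polynomial at the root. -/
theorem resZ_aeval {p : F'[X]} (hp : ∀ n, p.coeff n ∈ circleRing C a₀ ha1 ha2)
    (h : aeval θ p ∈ Z) :
    resZ ⟨aeval θ p, h⟩ = aeval (AdjoinRoot.root (vertBar q β ρ)) (H.red p hp) := by
  have h1 := rZ_aeval_map_subtype (circleRing C a₀ ha1 ha2).toSubring Z.toSubring
    (circleRes C a₀ ha1 ha2) resZ (fun y hy => H.map_mem hy)
    (fun y => by rw [H.compat y _, AdjoinRoot.algebraMap_eq]) H.θ_mem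
    (p.toSubring (circleRing C a₀ ha1 ha2).toSubring (H.coeffs_subset hp))
  rw [H.res_θ] at h1
  rw [red, ← h1]
  congr 1
  apply Subtype.ext
  show aeval θ p = aeval θ ((p.toSubring _ _).map (Subring.subtype _))
  rw [map_toSubring]

theorem red_natDegree {p : F'[X]} (hp : ∀ n, p.coeff n ∈ circleRing C a₀ ha1 ha2)
    (hm : p.Monic) : (H.red p hp).natDegree = p.natDegree := by
  rw [red, ((monic_toSubring p _ (H.coeffs_subset hp)).mpr hm).natDegree_map, natDegree_toSubring]

/-- **The reduction of the minimal polynomial of `θ` is `vertBar`** (derived, not assumed). -/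
theorem red_eq_vertBar (hq : 2 ≤ q) {Ψ : F'[X]} (hΨ : ∀ n, Ψ.coeff n ∈ circleRing C a₀ ha1 ha2)
    (hmonic : Ψ.Monic) (hroot : aeval θ Ψ = 0) (hdeg : Ψ.natDegree = q) :
    H.red Ψ hΨ = vertBar q β ρ := by
  have h0 : aeval (AdjoinRoot.root (vertBar q β ρ)) (H.red Ψ hΨ) = 0 := by
    rw [← H.resZ_aeval hΨ (H.aeval_mem hΨ)]
    have e : (⟨aeval θ Ψ, H.aeval_mem hΨ⟩ : Z) = 0 := Subtype.ext hroot
    rw [e, map_zero]
  have hdvd : vertBar q β ρ ∣ H.red Ψ hΨ := by
    rw [← minpoly_root_vert (q := q) (β := β) (ρ := ρ) hq]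
    exact minpoly.dvd _ _ h0
  exact eq_of_monic_of_dvd_of_natDegree_le (vertBar_monic hq) (H.red_monic hΨ hmonic) hdvd
    (by rw [H.red_natDegree hΨ hmonic, hdeg, vertBar_natDegree hq])

theorem coeff_derivative_mem {p : F'[X]} (hp : ∀ n, p.coeff n ∈ circleRing C a₀ ha1 ha2)
    (n : ℕ) : (derivative p).coeff n ∈ circleRing C a₀ ha1 ha2 := by
  rw [coeff_derivative]
  refine mul_mem (hp _) ?_
  have h : ((n : F') + 1) = ((n + 1 : ℕ) : F') := by push_cast; rfl
  rw [h]
  exact natCast_mem _ _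

theorem red_derivative {p : F'[X]} (hp : ∀ n, p.coeff n ∈ circleRing C a₀ ha1 ha2) :
    H.red (derivative p) (H.coeff_derivative_mem hp) = derivative (H.red p hp) := by
  ext n
  have h : ((n : F') + 1) = ((n + 1 : ℕ) : F') := by push_cast; rfl
  have e : (⟨(derivative p).coeff n, H.coeff_derivative_mem hp n⟩ : circleRing C a₀ ha1 ha2) =
      ⟨p.coeff (n + 1), hp (n + 1)⟩ * ((n + 1 : ℕ) : circleRing C a₀ ha1 ha2) := by
    apply Subtype.ext
    show (derivative p).coeff n = p.coeff (n + 1) * ((n + 1 : ℕ) : F')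
    rw [coeff_derivative, h]
  rw [coeff_red, e, map_mul, map_natCast, coeff_derivative, coeff_red]
  push_cast
  rfl

/-- **(SC-ZE) The cover sheet of `z e` at an ordinary point**: the hypotheses `CoverK.CoverSheet`
of the cover theorem A6-K for the vertical component over the residue disc of class
`cb = angRes A c a₀ ≠ 0`, at a point `Q` of the residue curve over `T = cb` with `Ũ(Q) = ū`;
`ψ = Ψ`, `ψc = 1`. -/
theorem coverSheet [CharP (ResidueField A) q] (hq : 2 ≤ q) (hβ : β ≠ 0) (hρ : ρ ≠ 0)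
    {Ψ : F'[X]} (hmonic : Ψ.Monic) (hirr : Irreducible Ψ) (hroot : aeval θ Ψ = 0)
    (hgen : ∀ y : F'', ∃ p : F'[X], aeval θ p = y) (hdeg : Ψ.natDegree = q)
    {c : K} (hc : A.valuation c = A.valuation a₀)
    (hΨR : ∀ n, Ψ.coeff n ∈ discRing C a₀ (angRes A c a₀) ha1 ha2)
    {Q : Place (ResidueField A) (AdjoinRoot (vertBar q β ρ))}
    (hQ : Q.restrict (RatFunc (ResidueField A)) = placeAt (ResidueField A) (angRes A c a₀))
    {u : A} (hu : IsValueAt Q (AdjoinRoot.root (vertBar q β ρ)) (residue A u)) :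
    CoverSheet A (residue A) (circleRing C a₀ ha1 ha2) (circleRes C a₀ ha1 ha2)
      (placeAt (ResidueField A) (angRes A c a₀)) Z resZ Q
      (discRing C a₀ (angRes A c a₀) ha1 ha2) θ Ψ Ψ 1 u := by
  have hcb : angRes A c a₀ ≠ 0 := angRes_ne_zero A (gauge_ne_zero ha1) hc
  have hΨ : ∀ n, Ψ.coeff n ∈ circleRing C a₀ ha1 ha2 := fun n => (hΨR n).1
  have hred := H.red_eq_vertBar hq hΨ hmonic hroot hdeg
  exact
  { comap_eq := H.comap_eq
    res_map := fun y hy hy' => by rw [H.compat ⟨y, hy⟩ hy', AdjoinRoot.algebraMap_eq]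
    res_eq_zero_iff := fun x => by
      rw [H.ker x, ValuationSubring.coe_mem_nonunits_iff, IsLocalRing.mem_maximalIdeal,
        mem_nonunits_iff]
    ord_map := ord_map hq hβ hρ hcb hQ
    θ_mem := H.θ_mem
    monic := hmonic
    irreducible := hirr
    coeff_mem := hΨR
    root := hroot
    gen := hgen
    value := by rw [H.res_θ]; exact hu
    simple := fun h => by
      rw [H.resZ_aeval (H.coeff_derivative_mem hΨ) h, H.red_derivative hΨ, hred]
      exact simple hq hβ hρ hcb hQ
    ψ_monic := hmonic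
    ψc_monic := monic_one
    ψ_coeff_mem := hΨR
    ψc_coeff_mem := fun n => by
      rw [coeff_one]
      split_ifs
      · exact one_mem _
      · exact zero_mem _
    factor := fun n => by
      rw [mul_one, sub_self, coeff_zero, ValuationSubring.mem_nonunits_iff, map_zero]
      exact zero_lt_one
    ψc_unit := fun h => by
      have e : (⟨aeval θ (1 : F'[X]), h⟩ : Z) = 1 := Subtype.ext (map_one _)
      rw [e, map_one, map_one]
      exact lt_irrefl _
    indep := fun c hc0 => by
      rw [H.res_θ] at hc0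
      exact indep_root hq hdeg c hc0 }

/-- **(SC-ZE) The regular smooth chart of `z e` at an ordinary point**: the tube of the point
`Q` (`T = cb`, `Ũ = ū`) of the vertical component is the sheet `θ ≡ u` over the residue disc of
class `cb` of the circle. -/
def regChart [IsAlgClosed K] [FiniteDimensional F' F''] [Algebra.IsSeparable F' F'']
    [CharP (ResidueField A) q] (hq : 2 ≤ q) (hβ : β ≠ 0) (hρ : ρ ≠ 0)
    {Ψ : F'[X]} (hmonic : Ψ.Monic) (hirr : Irreducible Ψ) (hroot : aeval θ Ψ = 0)
    (hgen : ∀ y : F'', ∃ p : F'[X], aeval θ p = y) (hdeg : Ψ.natDegree = q)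
    {c : K} (hc : A.valuation c = A.valuation a₀)
    (hΨR : ∀ n, Ψ.coeff n ∈ discRing C a₀ (angRes A c a₀) ha1 ha2)
    {Q : Place (ResidueField A) (AdjoinRoot (vertBar q β ρ))}
    (hQ : Q.restrict (RatFunc (ResidueField A)) = placeAt (ResidueField A) (angRes A c a₀))
    {u : A} (hu : IsValueAt Q (AdjoinRoot.root (vertBar q β ρ)) (residue A u))
    (harch : ∀ a c : K, A.valuation a < 1 → c ≠ 0 →
      ∃ N : ℕ, A.valuation a ^ N ≤ A.valuation c) :
    RegChart A Z resZ Q (coverTube A (classDisc C a₀ (angRes A c a₀)) θ u) :=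
  coverRegChart (subDiscRegChart C a₀ c ha1 ha2 hc)
    (H.coverSheet hq hβ hρ hmonic hirr hroot hgen hdeg hc hΨR hQ hu)
    (constHyp_circle C a₀ ha1 ha2).res_const (constHyp_circle C a₀ ha1 ha2).res_eq_zero_iff
    (constHyp_circle C a₀ ha1 ha2).const_nonunit (constHyp_circle C a₀ ha1 ha2).pi_inv
    (constHyp_circle C a₀ ha1 ha2).pi_zero harch
    (fun _ hy => circle_valueGroup ha1 ha2 hy)

theorem regChart_t [IsAlgClosed K] [FiniteDimensional F' F''] [Algebra.IsSeparable F' F'']
    [CharP (ResidueField A) q] (hq : 2 ≤ q) (hβ : β ≠ 0) (hρ : ρ ≠ 0)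
    {Ψ : F'[X]} (hmonic : Ψ.Monic) (hirr : Irreducible Ψ) (hroot : aeval θ Ψ = 0)
    (hgen : ∀ y : F'', ∃ p : F'[X], aeval θ p = y) (hdeg : Ψ.natDegree = q)
    {c : K} (hc : A.valuation c = A.valuation a₀)
    (hΨR : ∀ n, Ψ.coeff n ∈ discRing C a₀ (angRes A c a₀) ha1 ha2)
    {Q : Place (ResidueField A) (AdjoinRoot (vertBar q β ρ))}
    (hQ : Q.restrict (RatFunc (ResidueField A)) = placeAt (ResidueField A) (angRes A c a₀))
    {u : A} (hu : IsValueAt Q (AdjoinRoot.root (vertBar q β ρ)) (residue A u))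
    (harch : ∀ a c : K, A.valuation a < 1 → c ≠ 0 →
      ∃ N : ℕ, A.valuation a ^ N ≤ A.valuation c) :
    (H.regChart hq hβ hρ hmonic hirr hroot hgen hdeg hc hΨR hQ hu harch).chart.t =
      algebraMap F' F'' (discParam C a₀ c) := rfl

end VertComp

end Sheet

end Fermat.Agent.BR3.VertSheet
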