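import Mathlib
import Fermat.Agent.BR3.VertSheet.Sheet
import Fermat.Agent.BR3.VertFinal

/-!
# Program C (S36), node (SC-ZE), file 3: the cover sheets of `z e` at the ordinary points, for the
cover `X₀(M q²) → X₀(M q)` along `α₂` (the `j`-case)

`L : AnnulusLevels B T ι` level data of a tube of `F₁ = Fb (M q)` (main's
`annulusLevels_modular_final B hB hqM hne e`), `a₀` a gauge of the `a`-critical circle, with the
named hypotheses of `VertCircleMod.exists_vertComponent_of_levels` (`hR` : thickness one,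
`hb` : `VertCoord`).

* `vertHyp_of_levels` : the bundle `VertGlueAbs.VertHyp` on the circle ring (the first half of the
  proof of `exists_vertComponent_of_levels`, exported);
* `Ψ = vertScaled (phiK q F₁) q j(s^q) j(s) a₀` is the minimal polynomial of `θ = U / α₂ a₀`:
  monic, irreducible, of degree `q`, `F₂ = F₁[θ]`, with coefficients in the ring of every residue
  disc of the circle (`vertScaled_coeff_mem_discRing`);
* `coverSheet_of_levels`, `regChart_of_levels` : the cover sheet / the regular smooth chart of the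
  vertical component at the point (`T = cb`, `Ũ = ū`), for ANY `Z, resZ` satisfying the conclusion
  of `exists_vertComponent_of_levels`.
-/

set_option autoImplicit false
set_option linter.unusedSectionVars false
set_option linter.style.haveILetI false

noncomputable section

/- S36 build-time patch: file-local shortcut instances. They only shorten instance search;
each is the instance that the search finds anyway (reducible, same terms after unfolding). -/
local instance (priority := 100000) Fermat.Agent.BR3.FastInst.instAlgFullC_VertSheet_Modular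
    {k : Type*} [Field k] (N : ℕ) :
    Algebra k ↥(ModularCurve.modularFunctionFieldFullC k N) := inferInstance
local instance (priority := 100000) Fermat.Agent.BR3.FastInst.instFieldFullC_VertSheet_Modular
    {k : Type*} [Field k] (N : ℕ) :
    Field ↥(ModularCurve.modularFunctionFieldFullC k N) := inferInstance
local instance (priority := 100000) Fermat.Agent.BR3.FastInst.instAlgLaurent_VertSheet_Modular
    {k : Type*} [Field k] : Algebra k (LaurentSeries k) := inferInstance


namespace Fermat.Agent.BR3.VertSheet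

open Polynomial ModularCurve AlgebraicCurve IsLocalRing
open Fermat.Agent.X0 Fermat.Agent.Val Fermat.Agent.Red Fermat.Agent.BR.Kron
open Fermat.Agent.BR.Circle Fermat.Agent.BR.S0 Fermat.Agent.BR.P1 Fermat.Agent.BR.InertiaRed
open Fermat.Agent.BR.NodeNewton Fermat.Agent.BR.NodeKron
open Fermat.Agent.BR3.FibreProd Fermat.Agent.BR3.VertTaylor Fermat.Agent.BR3.VertResidue
open Fermat.Agent.BR3.VertGlueAbs Fermat.Agent.BR3.VertGlueMod Fermat.Agent.BR3.VertCircle
open Fermat.Agent.BR3.SubDisc Fermat.Agent.BR3.CoverK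
open scoped Polynomial.Bivariate

/-- Rank one, in the archimedean form used by the cover theorem. -/
theorem arch_of_isRankOne {K : Type*} [Field K] {A : ValuationSubring K} (hA : IsRankOne A)
    (a c : K) (ha : A.valuation a < 1) (hc : c ≠ 0) :
    ∃ N : ℕ, A.valuation a ^ N ≤ A.valuation c := by
  by_cases hc1 : A.valuation c ≤ 1
  · have haA : a ∈ A := (A.valuation_le_one_iff a).mp ha.le
    have hcA : c ∈ A := (A.valuation_le_one_iff c).mp hc1
    have hnu : ¬ IsUnit (⟨a, haA⟩ : A) := by
      intro hu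
      have := (A.valuation_eq_one_iff ⟨a, haA⟩).mp hu
      exact absurd ha (by rw [this]; exact lt_irrefl _)
    have hc0 : (⟨c, hcA⟩ : A) ≠ 0 := fun h => hc (congrArg Subtype.val h)
    obtain ⟨n, d, hd⟩ := hA ⟨a, haA⟩ hnu ⟨c, hcA⟩ hc0
    refine ⟨n, ?_⟩
    have h1 : a ^ n = c * (d : K) := by
      have := congrArg (fun z : A => (z : K)) hd
      simpa using this
    rw [← map_pow, h1, map_mul]
    calc A.valuation c * A.valuation (d : K) ≤ A.valuation c * 1 :=
          mul_le_mul_right ((A.valuation_le_one_iff _).mpr d.2) _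
      _ = A.valuation c := mul_one _
  · exact ⟨0, by rw [pow_zero]; exact (not_le.mp hc1).le⟩

variable {M q : ℕ} [NeZero M] [hq : Fact q.Prime]
  {B : ValuationSubring Kb} [IsAlgClosed (ResidueField B)]
  {T : Set (Place Kb (Fb (M * q)))} {ι : Type*}

local notation "kB" => ResidueField B

set_option maxHeartbeats 800000 in
/-- **The bundle of hypotheses of the vertical component on the critical circle, from the level
data** (exported from the proof of `VertCircleMod.exists_vertComponent_of_levels`). -/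
theorem vertHyp_of_levels (hqM : ¬ q ∣ M) (L : AnnulusLevels B T ι) (a₀ : Kb)
    (ha1 : B.valuation L.core.thick < B.valuation a₀) (ha2 : B.valuation a₀ < 1)
    (ha₀ : B.valuation a₀ ^ (q + 1) = B.valuation (q : Kb)) (i : ι)
    (hx : jq' M q ∈ (L.level i).R) (hy : jBar (M * q) ∈ (L.level i).R)
    (hΨ : (psiK q (Fb (M * q))).evalEval (jq' M q) (jBar (M * q)) ∈ (L.level i).R)
    (hR : IsUnit (⟨_, hΨ⟩ : (L.level i).R)) {β : kB} (hβ : β ≠ 0)
    (hb : IsRed L.core a₀ (a₀⁻¹ • (jBar (M * q) - jq' M q ^ q)) (RatFunc.C β * RatFunc.X)) :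
    letI := algebraAlong (alpha2 M q)
    VertHyp (L := Fb (M * q * q)) q (phiK q (Fb (M * q))) (psiK q (Fb (M * q))) (jq' M q)
      (jBar (M * q)) (algebraMap Kb (Fb (M * q)) a₀) (U M q) (circleRing L.core a₀ ha1 ha2) := by
  set O := circleRing L.core a₀ ha1 ha2 with hO
  set c : Fb (M * q) := algebraMap Kb (Fb (M * q)) a₀ with hc
  set x := jq' M q with hxdef
  set y := jBar (M * q) with hydef
  have ha₀0 : a₀ ≠ 0 := gauge_ne_zero ha1
  have hc0 : c ≠ 0 := (_root_.map_ne_zero _).mpr ha₀0
  have ha₀B : a₀ ∈ B := (B.valuation_le_one_iff _).mp ha2.le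
  have hxO : x ∈ O := mem_circleRing_of_mem_level L a₀ ha1 ha2 i hx
  have hyO : y ∈ O := mem_circleRing_of_mem_level L a₀ ha1 ha2 i hy
  have hc1 : c ∈ O := (algebraMap_mem_circleRing_iff L.core a₀ ha1 ha2 _).mpr ha₀B
  have hva₀ : 0 < B.valuation a₀ := by
    rw [zero_lt_iff, ne_eq, map_eq_zero]; exact ha₀0
  have hqc : O.valuation (q : Fb (M * q)) < O.valuation c ^ q := by
    have h1 : B.valuation (q : Kb) < B.valuation (a₀ ^ q) := by
      rw [← ha₀, map_pow, pow_succ]
      calc B.valuation a₀ ^ q * B.valuation a₀ < B.valuation a₀ ^ q * 1 :=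
            mul_lt_mul_of_pos_left ha2 (pow_pos hva₀ q)
        _ = B.valuation a₀ ^ q := mul_one _
    have h2 := valuation_algebraMap_lt L a₀ ha1 ha2 h1
    rwa [map_natCast, map_pow, map_pow] at h2
  have hvB : vertB q x y c = a₀⁻¹ • (y - x ^ q) := by
    rw [vertB, Algebra.smul_def, map_inv₀, div_eq_inv_mul]
  have hbO : vertB q x y c ∈ O := by
    rw [hvB]; exact ⟨_, hb⟩
  have hbres : circleRes L.core a₀ ha1 ha2 ⟨vertB q x y c, hbO⟩ = RatFunc.C β * RatFunc.X := by
    apply circleRes_eq
    show IsRed L.core a₀ (vertB q x y c) _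
    rw [hvB]; exact hb
  have hβX : (RatFunc.C β * RatFunc.X : RatFunc kB) ≠ 0 :=
    mul_ne_zero (by rw [ne_eq, map_eq_zero]; exact hβ) RatFunc.X_ne_zero
  have hbunit : IsUnit (⟨vertB q x y c, hbO⟩ : O) := by
    by_contra hnu
    rw [← circleRes_eq_zero_iff, hbres] at hnu
    exact hβX hnu
  obtain ⟨γ, hγ0, hγ⟩ := exists_isRed_const_of_isUnit L a₀ ha1 ha2 i hΨ hR
  have hvd : B.valuation ((q : Kb) / a₀ ^ (q + 1)) = 1 := by
    rw [map_div₀, map_pow, ha₀, div_self]
    rw [← ha₀]
    exact (pow_pos hva₀ _).ne'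
  have hdB : -((q : Kb) / a₀ ^ (q + 1)) ∈ B :=
    B.neg_mem _ ((B.valuation_le_one_iff _).mp hvd.le)
  have hρel : -((q : Fb (M * q)) * (psiK q (Fb (M * q))).evalEval x y) / c ^ (q + 1) =
      algebraMap Kb (Fb (M * q)) (-((q : Kb) / a₀ ^ (q + 1))) *
        (psiK q (Fb (M * q))).evalEval x y := by
    rw [map_neg, map_div₀, map_pow, map_natCast, ← hc]
    field_simp
  have hredρ := (isRed_const (C := L.core) (a := a₀) hdB).mul hγ
  rw [← hρel] at hredρ
  have hρm : -((q : Fb (M * q)) * (psiK q (Fb (M * q))).evalEval x y) / c ^ (q + 1) ∈ O :=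
    ⟨_, hredρ⟩
  have hab : vertA q x y c * vertB q x y c =
      -((q : Fb (M * q)) * (psiK q (Fb (M * q))).evalEval x y) / c ^ (q + 1) :=
    vertA_mul_vertB (phiK_eq q hq.out _) phiK_evalEval_mid_j c
  have haO : vertA q x y c ∈ O := by
    obtain ⟨w, hw⟩ := hbunit.exists_right_inv
    have h1 : vertB q x y c * (w : Fb (M * q)) = 1 := by
      have := congrArg (fun z : O => (z : Fb (M * q))) hw
      simpa using this
    have h2 : vertA q x y c = (-((q : Fb (M * q)) * (psiK q (Fb (M * q))).evalEval x y) /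
        c ^ (q + 1)) * (w : Fb (M * q)) := by
      rw [← hab, mul_assoc, h1, mul_one]
    rw [h2]
    exact O.mul_mem _ _ hρm w.2
  exact vertHyp_modular hqM O hc0 hxO hyO hc1 hqc hbO haO

/-! ### the minimal polynomial of `θ = U / α₂ a₀` -/

section Psi

variable (hqM : ¬ q ∣ M) (L : AnnulusLevels B T ι) (a₀ : Kb)
  (ha1 : B.valuation L.core.thick < B.valuation a₀) (ha2 : B.valuation a₀ < 1)

/-- The minimal polynomial of `θ = U / α₂ a₀` over `F₁`. -/
def psiVert (M q : ℕ) [NeZero M] [Fact q.Prime] (a₀ : Kb) : (Fb (M * q))[X] :=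
  vertScaled (phiK q (Fb (M * q))) q (jq' M q) (jBar (M * q)) (algebraMap Kb (Fb (M * q)) a₀)

/-- The generator `θ = U / α₂ a₀` of `F₂` over `F₁`. -/
def thetaVert (M q : ℕ) [NeZero M] [Fact q.Prime] (a₀ : Kb) : Fb (M * q * q) :=
  U M q / alpha2 M q (algebraMap Kb (Fb (M * q)) a₀)

/-- The coefficients of `Ψ` are regular at every place at which `j(s)`, `j(s^q)` are. -/
theorem psiVert_coeff_mem_place (P : Place Kb (Fb (M * q)))
    (hx : jq' M q ∈ P.toValuationSubring) (hy : jBar (M * q) ∈ P.toValuationSubring) (n : ℕ) :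
    (psiVert M q a₀).coeff n ∈ P.toValuationSubring := by
  rw [psiVert, coeff_vertScaled]
  have h1 : IntCoeff P.toValuationSubring.valuation
      (vertPoly (phiK q (Fb (M * q))) (jq' M q) (jBar (M * q))) :=
    intCoeff_vertPoly (intCoeff₂_map_int (PhiZ q))
      ((P.toValuationSubring.valuation_le_one_iff _).mpr hx)
      ((P.toValuationSubring.valuation_le_one_iff _).mpr hy)
  have h2 : (vertPoly (phiK q (Fb (M * q))) (jq' M q) (jBar (M * q))).coeff n ∈
      P.toValuationSubring := (P.toValuationSubring.valuation_le_one_iff _).mp (h1 n)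
  rw [← map_pow, ← map_pow, ← map_inv₀]
  exact mul_mem (P.algebraMap_mem' _) (mul_mem h2 (P.algebraMap_mem' _))

end Psi

/-! ### the sheets -/

section Main

variable (hqM : ¬ q ∣ M) (L : AnnulusLevels B T ι) (a₀ : Kb)
  (ha1 : B.valuation L.core.thick < B.valuation a₀) (ha2 : B.valuation a₀ < 1)
  (ha₀ : B.valuation a₀ ^ (q + 1) = B.valuation (q : Kb)) (i : ι)
  (hx : jq' M q ∈ (L.level i).R) (hy : jBar (M * q) ∈ (L.level i).R)
  (hΨ : (psiK q (Fb (M * q))).evalEval (jq' M q) (jBar (M * q)) ∈ (L.level i).R)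
  (hR : IsUnit (⟨_, hΨ⟩ : (L.level i).R)) {β : ResidueField B} (hβ : β ≠ 0)
  (hb : IsRed L.core a₀ (a₀⁻¹ • (jBar (M * q) - jq' M q ^ q)) (RatFunc.C β * RatFunc.X))

include hqM ha₀ hx hy hR hβ hb

set_option maxHeartbeats 1600000 in
set_option synthInstance.maxHeartbeats 400000 in
/-- **`Ψ` is the minimal polynomial of `θ`**: monic, irreducible, of degree `q`, `F₂ = F₁[θ]`,
with coefficients in the circle ring. -/
theorem psiVert_props :
    letI := algebraAlong (alpha2 M q)
    (psiVert M q a₀).Monic ∧ Irreducible (psiVert M q a₀) ∧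
      aeval (thetaVert M q a₀) (psiVert M q a₀) = 0 ∧
      (∀ z : Fb (M * q * q), ∃ p : (Fb (M * q))[X], aeval (thetaVert M q a₀) p = z) ∧
      (psiVert M q a₀).natDegree = q ∧
      ∀ n, (psiVert M q a₀).coeff n ∈ circleRing L.core a₀ ha1 ha2 := by
  letI := algebraAlong (alpha2 M q)
  haveI : Module.Finite (Fb (M * q)) (Fb (M * q * q)) :=
    Fermat.Agent.Hecke.finiteAlong_heckeAlphaBar (M * q) q
  have H := vertHyp_of_levels hqM L a₀ ha1 ha2 ha₀ i hx hy hΨ hR hβ hb
  have hgen : H.pb.gen = thetaVert M q a₀ := by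
    rw [H.pb_gen]
    rfl
  have hmin : minpoly (Fb (M * q)) (thetaVert M q a₀) = psiVert M q a₀ := by
    rw [← hgen, H.minpoly_pb_gen]
    rfl
  have hint : IsIntegral (Fb (M * q)) (thetaVert M q a₀) := by
    rw [← hgen]
    exact H.pb.isIntegral_gen
  refine ⟨vertScaled_monic H.natDegree_eq H.monic _ H.c_ne, ?_, ?_, ?_,
    vertScaled_natDegree H.natDegree_eq H.monic _ H.c_ne, H.vertScaled_coeff_mem⟩
  · rw [← hmin]
    exact minpoly.irreducible hint
  · rw [← hmin]
    exact minpoly.aeval _ _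
  · intro z
    obtain ⟨f, hf⟩ := H.pb.exists_eq_aeval' z
    exact ⟨f, by rw [hf, hgen]⟩

/-- **The coefficients of `Ψ` lie in the ring of every residue disc of the critical circle.** -/
theorem psiVert_coeff_mem_discRing (cb : ResidueField B) (n : ℕ) :
    (psiVert M q a₀).coeff n ∈ discRing L.core a₀ cb ha1 ha2 := by
  refine ⟨(psiVert_props hqM L a₀ ha1 ha2 ha₀ i hx hy hΨ hR hβ hb).2.2.2.2.2 n, fun P hP => ?_⟩
  have hI := ((L.level i).centred P hP.1).1
  obtain ⟨d, -, hd⟩ := hI _ hx
  obtain ⟨d', -, hd'⟩ := hI _ hy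
  exact psiVert_coeff_mem_place a₀ P hd.mem hd'.mem n

omit hqM ha₀ hx hy hR hβ hb in
/-- The conclusion of `VertCircleMod.exists_vertComponent_of_levels` (resp.
`VertFinal.exists_vertComponent_final`), as a `VertComp`. -/
theorem vertComp_of_levels {ρ : ResidueField B} [Fact (Irreducible (vertBar q β ρ))]
    {Z : ValuationSubring (Fb (M * q * q))} {resZ : Z →+* AdjoinRoot (vertBar q β ρ)}
    (h1 : Z.comap (alpha2 M q : Fb (M * q) →+* Fb (M * q * q)) = circleRing L.core a₀ ha1 ha2)
    (h4 : ∀ z : Z, resZ z = 0 ↔ ¬ IsUnit z)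
    (h5 : ∀ (y : circleRing L.core a₀ ha1 ha2) (h : alpha2 M q (y : Fb (M * q)) ∈ Z),
      resZ ⟨alpha2 M q (y : Fb (M * q)), h⟩ =
        AdjoinRoot.of (vertBar q β ρ) (circleRes L.core a₀ ha1 ha2 y))
    (h6 : ∃ hθ : U M q / alpha2 M q (algebraMap Kb (Fb (M * q)) a₀) ∈ Z,
      resZ ⟨U M q / alpha2 M q (algebraMap Kb (Fb (M * q)) a₀), hθ⟩ =
        AdjoinRoot.root (vertBar q β ρ)) :
    letI := algebraAlong (alpha2 M q)
    haveI := isScalarTower_along (alpha2 M q)
    VertComp L.core a₀ ha1 ha2 Z resZ (thetaVert M q a₀) := by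
  letI := algebraAlong (alpha2 M q)
  haveI := isScalarTower_along (alpha2 M q)
  obtain ⟨hθ, hθres⟩ := h6
  exact ⟨h1, h4, h5, hθ, hθres⟩

set_option maxHeartbeats 1600000 in
set_option synthInstance.maxHeartbeats 400000 in
/-- **(SC-ZE), `j`-case: the cover sheet of `z e` at the point (`T = cb`, `Ũ = ū`)**, `cb ≠ 0`
the class of `c / a₀`, for the cover `X₀(M q²) → X₀(M q)` along `α₂`. -/
theorem coverSheet_of_levels (hB : B.LiesOverPrime q) {ρ : ResidueField B} (hρ : ρ ≠ 0)
    [Fact (Irreducible (vertBar q β ρ))]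
    {Z : ValuationSubring (Fb (M * q * q))} {resZ : Z →+* AdjoinRoot (vertBar q β ρ)}
    (HZ : letI := algebraAlong (alpha2 M q)
      haveI := isScalarTower_along (alpha2 M q)
      VertComp L.core a₀ ha1 ha2 Z resZ (thetaVert M q a₀))
    {c : Kb} (hc : B.valuation c = B.valuation a₀)
    {Q : Place (ResidueField B) (AdjoinRoot (vertBar q β ρ))}
    (hQ : Q.restrict (RatFunc (ResidueField B)) = placeAt (ResidueField B) (angRes B c a₀))
    {u : B} (hu : IsValueAt Q (AdjoinRoot.root (vertBar q β ρ)) (residue B u)) :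
    letI := algebraAlong (alpha2 M q)
    haveI := isScalarTower_along (alpha2 M q)
    CoverSheet B (residue B) (circleRing L.core a₀ ha1 ha2) (circleRes L.core a₀ ha1 ha2)
      (placeAt (ResidueField B) (angRes B c a₀)) Z resZ Q
      (discRing L.core a₀ (angRes B c a₀) ha1 ha2) (thetaVert M q a₀) (psiVert M q a₀)
      (psiVert M q a₀) 1 u := by
  letI := algebraAlong (alpha2 M q)
  haveI := isScalarTower_along (alpha2 M q)
  haveI : CharP (ResidueField B) q := charP_residueField_of_liesOverPrime B hB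
  obtain ⟨hmonic, hirr, hroot, hgen, hdeg, -⟩ :=
    psiVert_props hqM L a₀ ha1 ha2 ha₀ i hx hy hΨ hR hβ hb
  exact HZ.coverSheet hq.out.two_le hβ hρ hmonic hirr hroot hgen hdeg hc
    (psiVert_coeff_mem_discRing hqM L a₀ ha1 ha2 ha₀ i hx hy hΨ hR hβ hb _) hQ hu

set_option maxHeartbeats 1600000 in
set_option synthInstance.maxHeartbeats 400000 in
/-- **(SC-ZE), `j`-case: the regular smooth chart of `z e` at the point (`T = cb`, `Ũ = ū`)**:
its tube is the sheet `θ ≡ u` over the residue disc of class `cb` of the critical circle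
(the field `smooth` of the model `S″` at the ordinary points of `z e`). -/
def regChart_of_levels (hB : B.LiesOverPrime q) {ρ : ResidueField B} (hρ : ρ ≠ 0)
    [Fact (Irreducible (vertBar q β ρ))]
    {Z : ValuationSubring (Fb (M * q * q))} {resZ : Z →+* AdjoinRoot (vertBar q β ρ)}
    (HZ : letI := algebraAlong (alpha2 M q)
      haveI := isScalarTower_along (alpha2 M q)
      VertComp L.core a₀ ha1 ha2 Z resZ (thetaVert M q a₀))
    {c : Kb} (hc : B.valuation c = B.valuation a₀)
    {Q : Place (ResidueField B) (AdjoinRoot (vertBar q β ρ))}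
    (hQ : Q.restrict (RatFunc (ResidueField B)) = placeAt (ResidueField B) (angRes B c a₀))
    {u : B} (hu : IsValueAt Q (AdjoinRoot.root (vertBar q β ρ)) (residue B u)) :
    letI := algebraAlong (alpha2 M q)
    haveI := isScalarTower_along (alpha2 M q)
    haveI : Module.Finite (Fb (M * q)) (Fb (M * q * q)) :=
      Fermat.Agent.Hecke.finiteAlong_heckeAlphaBar (M * q) q
    RegChart B Z resZ Q
      (coverTube B (classDisc L.core a₀ (angRes B c a₀)) (thetaVert M q a₀) u) := by
  letI := algebraAlong (alpha2 M q)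
  haveI := isScalarTower_along (alpha2 M q)
  haveI : Module.Finite (Fb (M * q)) (Fb (M * q * q)) :=
    Fermat.Agent.Hecke.finiteAlong_heckeAlphaBar (M * q) q
  haveI : CharP (ResidueField B) q := charP_residueField_of_liesOverPrime B hB
  have hp := psiVert_props hqM L a₀ ha1 ha2 ha₀ i hx hy hΨ hR hβ hb
  exact HZ.regChart hq.out.two_le hβ hρ hp.1 hp.2.1 hp.2.2.1 hp.2.2.2.1 hp.2.2.2.2.1 hc
    (psiVert_coeff_mem_discRing hqM L a₀ ha1 ha2 ha₀ i hx hy hΨ hR hβ hb _) hQ hu
    (arch_of_isRankOne (Fermat.Agent.Val.isRankOne B hB))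

end Main

end Fermat.Agent.BR3.VertSheet
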