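import Mathlib
import Fermat.Agent.BR3.VertSheet.Sheet
import Fermat.Agent.BR3.VertSheet.Modular
import Fermat.Agent.BR3.VertAllLevels
import Fermat.Agent.BR3.SplitPoly

/-!
# Program C (S36), node (SC-ZE), file 3': the cover sheets of `z e` at the ordinary points, for the
uniform generator `U_g` (the `f`-case, every supersingular crossing)

Mirror of `BR3/VertSheet/Modular.lean` (the `j`-case) for the generator of
`BR3/VertAllLevels.exists_vertComponent_of_levels_tw` (node (I5-GLUE), layer A): `g` a level-`M`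
function, `P_g = PAt M q g` its Hecke polynomial with the twisted Kronecker shape
`P_g = (X^q - C x₂)(X - C (x₁^q)) + C q · Ψ₁`, `U_g = β₂ (β g) - α₂ (α g)`.

* `psiVertTw M q g a₀ = vertScaledAt (PAt M q g) q (α g) a₀`, `thetaVertTw M q g a₀ = U_g / α₂ a₀`;
* `vertData_of_levels_tw` : the coefficients of `Ψ_g` lie in the circle ring and `U_g ∉ α₂ F₁`
  (exported from the proof of `exists_vertComponent_of_levels_tw`);
* `psiVertTw_props` : `Ψ_g` is the minimal polynomial of `θ_g`: monic, irreducible, of degree `q`,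
  `F₂ = F₁[θ_g]`, coefficients in the circle ring;
* `psiVertTw_coeff_mem_discRing` : the coefficients lie in the ring of every residue disc;
* `vertComp_of_levels_tw`, `coverSheet_of_levels_tw`, `regChart_of_levels_tw` : the cover sheet /
  the regular smooth chart of the vertical component at the point (`T = cb`, `Ũ = ū`), for ANY
  `Z, resZ` satisfying the conclusion of `exists_vertComponent_of_levels_tw`.
-/

set_option autoImplicit false
set_option linter.unusedSectionVars false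
set_option linter.style.haveILetI false
set_option synthInstance.maxHeartbeats 400000

noncomputable section

/- S36 build-time patch: file-local shortcut instances. They only shorten instance search;
each is the instance that the search finds anyway (reducible, same terms after unfolding). -/
local instance (priority := 100000) Fermat.Agent.BR3.FastInst.instAlgFullC_VertSheet_ModularTw
    {k : Type*} [Field k] (N : ℕ) :
    Algebra k ↥(ModularCurve.modularFunctionFieldFullC k N) := inferInstance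
local instance (priority := 100000) Fermat.Agent.BR3.FastInst.instFieldFullC_VertSheet_ModularTw
    {k : Type*} [Field k] (N : ℕ) :
    Field ↥(ModularCurve.modularFunctionFieldFullC k N) := inferInstance
local instance (priority := 100000) Fermat.Agent.BR3.FastInst.instAlgLaurent_VertSheet_ModularTw
    {k : Type*} [Field k] : Algebra k (LaurentSeries k) := inferInstance


namespace Fermat.Agent.BR3.VertSheet

open Polynomial ModularCurve AlgebraicCurve IsLocalRing
open Fermat.Agent.X0 Fermat.Agent.Val Fermat.Agent.Red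
open Fermat.Agent.BR.Circle Fermat.Agent.BR.S0 Fermat.Agent.BR.P1 Fermat.Agent.BR.InertiaRed
open Fermat.Agent.BR.NodeNewton
open Fermat.Agent.BR3.FibreProd Fermat.Agent.BR3.VertTaylor Fermat.Agent.BR3.VertResidue
open Fermat.Agent.BR3.VertGlueMod Fermat.Agent.BR3.VertCircle Fermat.Agent.BR3.VertTaylorAt
open Fermat.Agent.BR3.VertTaylorTw Fermat.Agent.BR3.HeckePoly Fermat.Agent.BR3.GaussExtSubring
open Fermat.Agent.BR3.VertAllLevels Fermat.Agent.BR3.SubDisc Fermat.Agent.BR3.CoverK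

/-! ### polynomials with coefficients in a subring -/

section Lifts

variable {F : Type*} [Field F] (S : Subring F)

theorem mem_lifts_subtype_iff {p : F[X]} : p ∈ lifts S.subtype ↔ ∀ n, p.coeff n ∈ S := by
  rw [lifts_iff_coeff_lifts]
  constructor
  · intro h n
    obtain ⟨a, ha⟩ := h n
    rw [← ha]
    exact a.2
  · intro h n
    exact ⟨⟨p.coeff n, h n⟩, rfl⟩

theorem C_mem_lifts_subtype {a : F} (ha : a ∈ S) : (C a : F[X]) ∈ lifts S.subtype :=
  (mem_lifts _).mpr ⟨C ⟨a, ha⟩, by rw [Polynomial.map_C]; rfl⟩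

theorem sub_mem_lifts_subtype {p r : F[X]} (hp : p ∈ lifts S.subtype) (hr : r ∈ lifts S.subtype) :
    p - r ∈ lifts S.subtype := by
  rw [mem_lifts_subtype_iff] at hp hr ⊢
  intro n
  rw [coeff_sub]
  exact S.sub_mem (hp n) (hr n)

/-- The twisted Kronecker shape has coefficients in every subring containing `x₁`, `x₂`, `ϖ` and
the coefficients of `Ψ₁`. -/
theorem shape_mem_lifts {q : ℕ} {Ψ₁ : F[X]} {x₁ x₂ ϖ : F} (hx₁ : x₁ ∈ S) (hx₂ : x₂ ∈ S)
    (hϖ : ϖ ∈ S) (hΨ : ∀ k, Ψ₁.coeff k ∈ S) :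
    (X ^ q - C x₂) * (X - C (x₁ ^ q)) + C ϖ * Ψ₁ ∈ lifts S.subtype := by
  have hX : (X : F[X]) ∈ lifts S.subtype := X_mem_lifts _
  exact add_mem
    (mul_mem (sub_mem_lifts_subtype S (pow_mem hX q) (C_mem_lifts_subtype S hx₂))
      (sub_mem_lifts_subtype S hX (C_mem_lifts_subtype S (S.pow_mem hx₁ q))))
    (mul_mem (C_mem_lifts_subtype S hϖ) ((mem_lifts_subtype_iff S).mpr hΨ))

/-- The coefficients of the vertical polynomial lie in every subring containing `y` and the
coefficients of `P`. -/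
theorem vertPolyAt_coeff_mem {P : F[X]} (hP : ∀ n, P.coeff n ∈ S) {y : F} (hy : y ∈ S) (n : ℕ) :
    (vertPolyAt P y).coeff n ∈ S := by
  have h1 : P.comp (X + C y) ∈ lifts S.subtype :=
    SplitPoly.comp_mem_lifts S.subtype ((mem_lifts_subtype_iff S).mpr hP)
      (add_mem (X_mem_lifts _) (C_mem_lifts_subtype S hy))
  exact (mem_lifts_subtype_iff S).mp (SplitPoly.divX_mem_lifts S.subtype h1) n

theorem coeff_vertScaledAt (P : F[X]) (q : ℕ) (y c : F) (n : ℕ) :
    (vertScaledAt P q y c).coeff n = (c ^ q)⁻¹ * ((vertPolyAt P y).coeff n * c ^ n) := by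
  rw [vertScaledAt, coeff_C_mul, comp_C_mul_X_coeff]

end Lifts

variable {M q : ℕ} [NeZero M] [hq : Fact q.Prime]
  {B : ValuationSubring Kb} [IsAlgClosed (ResidueField B)]
  {T : Set (Place Kb (Fb (M * q)))} {ι : Type*}

local notation "kB" => ResidueField B

/-- The minimal polynomial of `θ_g = U_g / α₂ a₀` over `F₁`. -/
def psiVertTw (M q : ℕ) [NeZero M] [Fact q.Prime] (g : Fb M) (a₀ : Kb) : (Fb (M * q))[X] :=
  vertScaledAt (PAt M q g) q (heckeAlphaBar Kb M q g) (algebraMap Kb (Fb (M * q)) a₀)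

/-- The generator `θ_g = U_g / α₂ a₀` of `F₂` over `F₁`. -/
def thetaVertTw (M q : ℕ) [NeZero M] [Fact q.Prime] (g : Fb M) (a₀ : Kb) : Fb (M * q * q) :=
  Ug M q g / alpha2 M q (algebraMap Kb (Fb (M * q)) a₀)

/-- The coefficients of `Ψ_g` are regular at every place at which `α g` and the coefficients of
`P_g` are. -/
theorem psiVertTw_coeff_mem_place (g : Fb M) (a₀ : Kb) (P : Place Kb (Fb (M * q)))
    (hP : ∀ n, (PAt M q g).coeff n ∈ P.toValuationSubring)
    (hy : heckeAlphaBar Kb M q g ∈ P.toValuationSubring) (n : ℕ) :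
    (psiVertTw M q g a₀).coeff n ∈ P.toValuationSubring := by
  rw [psiVertTw, coeff_vertScaledAt]
  have h2 : (vertPolyAt (PAt M q g) (heckeAlphaBar Kb M q g)).coeff n ∈
      P.toValuationSubring.toSubring :=
    vertPolyAt_coeff_mem P.toValuationSubring.toSubring hP hy n
  rw [← map_pow, ← map_pow, ← map_inv₀]
  exact mul_mem (P.algebraMap_mem' _) (mul_mem h2 (P.algebraMap_mem' _))

section Main

variable (hqM : ¬ q ∣ M) (L : AnnulusLevels B T ι) (a₀ : Kb)
  (ha1 : B.valuation L.core.thick < B.valuation a₀) (ha2 : B.valuation a₀ < 1)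
  (ha₀ : B.valuation a₀ ^ (q + 1) = B.valuation (q : Kb)) (i : ι)
  {g : Fb M} (hgc : g ∉ Set.range (algebraMap Kb (Fb M)))
  {x₁ x₂ : Fb (M * q)} {Ψ₁ : (Fb (M * q))[X]}
  (hP : PAt M q g = (X ^ q - C x₂) * (X - C (x₁ ^ q)) + C ((q : ℕ) : Fb (M * q)) * Ψ₁)
  (hx₁ : x₁ ∈ (L.level i).R) (hy : heckeAlphaBar Kb M q g ∈ (L.level i).R)
  (hΨ : ∀ k, Ψ₁.coeff k ∈ (L.level i).R)
  (hz : Ψ₁.eval (heckeAlphaBar Kb M q g) ∈ (L.level i).R)
  (hR : IsUnit (⟨_, hz⟩ : (L.level i).R)) {β : ResidueField B} (hβ : β ≠ 0)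
  (hb : IsRed L.core a₀ (a₀⁻¹ • (heckeAlphaBar Kb M q g - x₁ ^ q))
    (RatFunc.C β * RatFunc.X))

include hqM ha₀ hgc hP hx₁ hy hΨ hR hβ hb

set_option maxHeartbeats 1600000 in
/-- **The data of the vertical polynomial on the critical circle** (exported from the proof of
`VertAllLevels.exists_vertComponent_of_levels_tw`): the coefficients of `Ψ_g` lie in the circle
ring, and `U_g ∉ α₂ F₁`. -/
theorem vertData_of_levels_tw :
    letI := algebraAlong (alpha2 M q)
    (∀ n, (psiVertTw M q g a₀).coeff n ∈ circleRing L.core a₀ ha1 ha2) ∧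
      aeval (algebraMap (Fb (M * q)) (Fb (M * q * q)) (heckeAlphaBar Kb M q g) + Ug M q g)
        (PAt M q g) = 0 ∧
      Ug M q g ∉ Set.range (algebraMap (Fb (M * q)) (Fb (M * q * q))) := by
  letI := algebraAlong (alpha2 M q)
  haveI : Module.Finite (Fb (M * q)) (Fb (M * q * q)) :=
    Fermat.Agent.Hecke.finiteAlong_heckeAlphaBar (M * q) q
  set O := circleRing L.core a₀ ha1 ha2 with hO
  set c : Fb (M * q) := algebraMap Kb (Fb (M * q)) a₀ with hc
  set y := heckeAlphaBar Kb M q g with hydef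
  have ha₀0 : a₀ ≠ 0 := gauge_ne_zero ha1
  have hc0 : c ≠ 0 := (_root_.map_ne_zero _).mpr ha₀0
  have ha₀B : a₀ ∈ B := (B.valuation_le_one_iff _).mp ha2.le
  have hxO : x₁ ∈ O := mem_circleRing_of_mem_level L a₀ ha1 ha2 i hx₁
  have hyO : y ∈ O := mem_circleRing_of_mem_level L a₀ ha1 ha2 i hy
  have hc1 : c ∈ O := (algebraMap_mem_circleRing_iff L.core a₀ ha1 ha2 _).mpr ha₀B
  have hΨint : IntCoeff O.valuation Ψ₁ := fun n =>
    (O.valuation_le_one_iff _).mpr (mem_circleRing_of_mem_level L a₀ ha1 ha2 i (hΨ n))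
  have hva₀ : 0 < B.valuation a₀ := by
    rw [zero_lt_iff, ne_eq, map_eq_zero]; exact ha₀0
  have hqc : O.valuation ((q : ℕ) : Fb (M * q)) < O.valuation c ^ q := by
    have h1 : B.valuation (q : Kb) < B.valuation (a₀ ^ q) := by
      rw [← ha₀, map_pow, pow_succ]
      calc B.valuation a₀ ^ q * B.valuation a₀ < B.valuation a₀ ^ q * 1 :=
            mul_lt_mul_of_pos_left ha2 (pow_pos hva₀ q)
        _ = B.valuation a₀ ^ q := mul_one _
    have h2 := valuation_algebraMap_lt L a₀ ha1 ha2 h1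
    rwa [map_natCast, map_pow, map_pow] at h2
  have hvB : vertB q x₁ y c = a₀⁻¹ • (y - x₁ ^ q) := by
    rw [vertB, Algebra.smul_def, map_inv₀, div_eq_inv_mul]
  have hbO : vertB q x₁ y c ∈ O := by
    rw [hvB]; exact ⟨_, hb⟩
  have hbres : circleRes L.core a₀ ha1 ha2 ⟨vertB q x₁ y c, hbO⟩ = RatFunc.C β * RatFunc.X := by
    apply circleRes_eq
    show IsRed L.core a₀ (vertB q x₁ y c) _
    rw [hvB]; exact hb
  have hβX : (RatFunc.C β * RatFunc.X : RatFunc kB) ≠ 0 :=
    mul_ne_zero (by rw [ne_eq, map_eq_zero]; exact hβ) RatFunc.X_ne_zero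
  have hbunit : IsUnit (⟨vertB q x₁ y c, hbO⟩ : O) := by
    by_contra hnu
    rw [← circleRes_eq_zero_iff, hbres] at hnu
    exact hβX hnu
  obtain ⟨γ, hγ0, hγ⟩ := exists_isRed_const_of_isUnit L a₀ ha1 ha2 i hz hR
  have hvd : B.valuation ((q : Kb) / a₀ ^ (q + 1)) = 1 := by
    rw [map_div₀, map_pow, ha₀, div_self]
    rw [← ha₀]
    exact (pow_pos hva₀ _).ne'
  have hdB : -((q : Kb) / a₀ ^ (q + 1)) ∈ B :=
    B.neg_mem _ ((B.valuation_le_one_iff _).mp hvd.le)
  have hd'B : (q : Kb) / a₀ ^ (q + 1) ∈ B := (B.valuation_le_one_iff _).mp hvd.le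
  have hρel : -(((q : ℕ) : Fb (M * q)) * Ψ₁.eval y) / c ^ (q + 1) =
      algebraMap Kb (Fb (M * q)) (-((q : Kb) / a₀ ^ (q + 1))) * Ψ₁.eval y := by
    rw [map_neg, map_div₀, map_pow, map_natCast, ← hc]
    field_simp
  have hredρ := (isRed_const (C := L.core) (a := a₀) hdB).mul hγ
  rw [← hρel] at hredρ
  have hρm : -(((q : ℕ) : Fb (M * q)) * Ψ₁.eval y) / c ^ (q + 1) ∈ O := ⟨_, hredρ⟩
  set ρ : kB := residue B ⟨(q : Kb) / a₀ ^ (q + 1), hd'B⟩ * γ with hρdef
  have hres0 : residue B ⟨(q : Kb) / a₀ ^ (q + 1), hd'B⟩ ≠ 0 := by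
    rw [ne_eq, residue_eq_zero_iff]
    intro hmem
    have := (B.valuation_lt_one_iff _).mp hmem
    rw [hvd] at this
    exact lt_irrefl _ this
  have hρ0 : ρ ≠ 0 := mul_ne_zero hres0 hγ0
  have hρres : circleRes L.core a₀ ha1 ha2 ⟨_, hρm⟩ = -RatFunc.C ρ := by
    rw [circleRes_eq L.core a₀ ha1 ha2 (y := ⟨_, hρm⟩) hredρ, hρdef, map_mul, ← neg_mul]
    congr 1
    rw [← RatFunc.algebraMap_eq_C, ← map_neg, ← map_neg]
    rfl
  have h0 : (PAt M q g).eval y = 0 := PAt_eval_alpha hqM g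
  have hab : vertA q x₂ y c * vertB q x₁ y c =
      -(((q : ℕ) : Fb (M * q)) * Ψ₁.eval y) / c ^ (q + 1) := vertA_mul_vertB_tw hP h0 c
  have haO : vertA q x₂ y c ∈ O := by
    obtain ⟨w, hw⟩ := hbunit.exists_right_inv
    have h1 : vertB q x₁ y c * (w : Fb (M * q)) = 1 := by
      have := congrArg (fun z : O => (z : Fb (M * q))) hw
      simpa using this
    have h2 : vertA q x₂ y c = (-(((q : ℕ) : Fb (M * q)) * Ψ₁.eval y) / c ^ (q + 1)) *
        (w : Fb (M * q)) := by
      rw [← hab, mul_assoc, h1, mul_one]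
    rw [h2]
    exact O.mul_mem _ _ hρm w.2
  have hares := res_vertA_of_res_prod_tw hP h0 O hbO haO (circleRes L.core a₀ ha1 ha2) hβ hbres
    hρm hρres
  have hmon : (PAt M q g).Monic := PAt_monic g
  have hdeg : (PAt M q g).natDegree = q + 1 := PAt_natDegree hqM g
  have h1 : aeval (algebraMap (Fb (M * q)) (Fb (M * q * q)) y + Ug M q g) (PAt M q g) = 0 := by
    have e : algebraMap (Fb (M * q)) (Fb (M * q * q)) y + Ug M q g =
        beta2 M q (heckeBetaBar Kb M q g) := by
      show alpha2 M q y + Ug M q g = _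
      rw [Ug, add_sub_cancel]
    rw [e, aeval_def, eval₂_eq_eval_map]
    have e2 : (PAt M q g).map (algebraMap (Fb (M * q)) (Fb (M * q * q))) =
        (heckePoly M q g).map (mid M q : Fb M →+* Fb (M * q * q)) := PAt_map_alpha2 g
    rw [e2]
    exact heckePoly_map_mid_eval_beta g
  have hx' := (O.valuation_le_one_iff _).mpr hxO
  have hy' := (O.valuation_le_one_iff _).mpr hyO
  have hc1' := (O.valuation_le_one_iff _).mpr hc1
  have hb' := (O.valuation_le_one_iff _).mpr hbO
  have ha' := (O.valuation_le_one_iff _).mpr haO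
  have hsc : IntCoeff O.valuation (vertScaledAt (PAt M q g) q y c) :=
    intCoeff_vertScaledAt_tw hq.out hP hΨint hx' hy' hc1' hc0 hqc hqc hb' ha'
  have hscO : ∀ n, (vertScaledAt (PAt M q g) q y c).coeff n ∈ O := fun n =>
    (O.valuation_le_one_iff _).mp (hsc n)
  have hredS : ∀ n, circleRes L.core a₀ ha1 ha2 ⟨(vertScaledAt (PAt M q g) q y c).coeff n, hscO n⟩ =
      (vertBar q β ρ).coeff n := by
    intro n
    have h2 := res_coeff_vertScaledAt_tw (resInt O (circleRes L.core a₀ ha1 ha2))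
      (resInt_eq_zero_iff O (circleRes L.core a₀ ha1 ha2)
        (circleRes_eq_zero_iff L.core a₀ ha1 ha2)) hq.out hP hΨint hx' hy' hc1' hc0 hqc hqc
      hb' ha' n (hsc n)
    have h3 : (X ^ q + C (circleRes L.core a₀ ha1 ha2 ⟨vertB q x₁ y c, hbO⟩) * X ^ (q - 1) +
        C (circleRes L.core a₀ ha1 ha2 ⟨vertA q x₂ y c, haO⟩) : (RatFunc kB)[X]) =
        vertBar q β ρ := by
      rw [hbres, hares, vertBar]
    rw [← h3]
    exact h2
  refine ⟨hscO, h1, ?_⟩
  rintro ⟨u, hu⟩
  have hu0 : u ≠ 0 := by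
    rintro rfl
    rw [map_zero] at hu
    exact Ug_ne_zero hgc hu.symm
  have h3 : (PAt M q g).eval (y + u) = 0 := by
    have h4 : algebraMap (Fb (M * q)) (Fb (M * q * q)) ((PAt M q g).eval (y + u)) = 0 := by
      rw [← aeval_algebraMap_apply_eq_algebraMap_eval, map_add, hu]
      exact h1
    exact (_root_.map_eq_zero _).mp h4
  have h5 := eval_vertPolyAt_eq_zero h0 h3 hu0
  have h6 : (vertScaledAt (PAt M q g) q y c).eval (u / c) = 0 := eval_vertScaledAt_div hc0 h5
  exact not_isRoot_of_res_irreducible O (circleRes L.core a₀ ha1 ha2)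
    (vertScaledAt_monic hdeg hmon y hc0) hscO hredS
    (vertBar_irreducible hq.out.two_le hβ hρ0)
    (by rw [vertBar_natDegree hq.out.two_le]; exact hq.out.two_le) (u / c) h6

set_option maxHeartbeats 1600000 in
/-- **`Ψ_g` is the minimal polynomial of `θ_g`**: monic, irreducible, of degree `q`,
`F₂ = F₁[θ_g]`, with coefficients in the circle ring. -/
theorem psiVertTw_props :
    letI := algebraAlong (alpha2 M q)
    (psiVertTw M q g a₀).Monic ∧ Irreducible (psiVertTw M q g a₀) ∧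
      aeval (thetaVertTw M q g a₀) (psiVertTw M q g a₀) = 0 ∧
      (∀ z : Fb (M * q * q), ∃ p : (Fb (M * q))[X], aeval (thetaVertTw M q g a₀) p = z) ∧
      (psiVertTw M q g a₀).natDegree = q ∧
      ∀ n, (psiVertTw M q g a₀).coeff n ∈ circleRing L.core a₀ ha1 ha2 := by
  letI := algebraAlong (alpha2 M q)
  haveI : Module.Finite (Fb (M * q)) (Fb (M * q * q)) :=
    Fermat.Agent.Hecke.finiteAlong_heckeAlphaBar (M * q) q
  obtain ⟨hcoeff, h1, hU⟩ :=
    vertData_of_levels_tw hqM L a₀ ha1 ha2 ha₀ i hgc hP hx₁ hy hΨ hz hR hβ hb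
  have hc0 : algebraMap Kb (Fb (M * q)) a₀ ≠ 0 :=
    (_root_.map_ne_zero _).mpr (gauge_ne_zero ha1)
  have hmon : (PAt M q g).Monic := PAt_monic g
  have hdeg : (PAt M q g).natDegree = q + 1 := PAt_natDegree hqM g
  have h0 : (PAt M q g).eval (heckeAlphaBar Kb M q g) = 0 := PAt_eval_alpha hqM g
  obtain ⟨hmin, htop⟩ := minpoly_theta_at hq.out finrankAlong_alpha2 hmon hdeg h0 h1 hU hc0
  have hθ : Ug M q g / algebraMap (Fb (M * q)) (Fb (M * q * q))
      (algebraMap Kb (Fb (M * q)) a₀) = thetaVertTw M q g a₀ := rfl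
  rw [hθ] at hmin htop
  have hint : IsIntegral (Fb (M * q)) (thetaVertTw M q g a₀) := Algebra.IsIntegral.isIntegral _
  refine ⟨vertScaledAt_monic hdeg hmon _ hc0, ?_, ?_, ?_,
    vertScaledAt_natDegree hdeg hmon _ hc0, hcoeff⟩
  · show Irreducible (vertScaledAt (PAt M q g) q _ _)
    rw [← hmin]
    exact minpoly.irreducible hint
  · show aeval (thetaVertTw M q g a₀) (vertScaledAt (PAt M q g) q _ _) = 0
    rw [← hmin]
    exact minpoly.aeval _ _
  · intro z
    set pb : PowerBasis (Fb (M * q)) (Fb (M * q * q)) :=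
      Fermat.Agent.BR3.GaussExt.powerBasisOfAdjoinEqTop (θ := thetaVertTw M q g a₀) hint htop
      with hpb
    have hgen : pb.gen = thetaVertTw M q g a₀ :=
      Fermat.Agent.BR3.GaussExt.powerBasisOfAdjoinEqTop_gen _ _
    obtain ⟨f, hf⟩ := pb.exists_eq_aeval' z
    exact ⟨f, by rw [hf, hgen]⟩

set_option maxHeartbeats 1600000 in
/-- **The coefficients of `Ψ_g` lie in the ring of every residue disc of the critical circle.** -/
theorem psiVertTw_coeff_mem_discRing (hx₂ : x₂ ∈ (L.level i).R) (cb : ResidueField B) (n : ℕ) :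
    (psiVertTw M q g a₀).coeff n ∈ discRing L.core a₀ cb ha1 ha2 := by
  refine ⟨(psiVertTw_props hqM L a₀ ha1 ha2 ha₀ i hgc hP hx₁ hy hΨ hz hR hβ hb).2.2.2.2.2 n,
    fun P hPd => ?_⟩
  have hI := ((L.level i).centred P hPd.1).1
  have hmem : ∀ w ∈ (L.level i).R, w ∈ P.toValuationSubring.toSubring := fun w hw => by
    obtain ⟨d, -, hd⟩ := hI w hw
    exact hd.mem
  have hqR : ((q : ℕ) : Fb (M * q)) ∈ P.toValuationSubring.toSubring := natCast_mem _ q
  have hPA : ∀ m, (PAt M q g).coeff m ∈ P.toValuationSubring := by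
    have h1 := shape_mem_lifts (q := q) P.toValuationSubring.toSubring (hmem _ hx₁) (hmem _ hx₂)
      hqR (fun k => hmem _ (hΨ k))
    rw [← hP] at h1
    exact (mem_lifts_subtype_iff _).mp h1
  exact psiVertTw_coeff_mem_place g a₀ P hPA (hmem _ hy) n

omit hqM ha₀ hgc hP hx₁ hy hΨ hR hβ hb in
/-- The conclusion of `VertAllLevels.exists_vertComponent_of_levels_tw` (resp. of
`VertAll.exists_vertComponent_all`), as a `VertComp`. -/
theorem vertComp_of_levels_tw {ρ : ResidueField B} [Fact (Irreducible (vertBar q β ρ))]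
    {Z : ValuationSubring (Fb (M * q * q))} {resZ : Z →+* AdjoinRoot (vertBar q β ρ)}
    (h1 : Z.comap (alpha2 M q : Fb (M * q) →+* Fb (M * q * q)) = circleRing L.core a₀ ha1 ha2)
    (h4 : ∀ z : Z, resZ z = 0 ↔ ¬ IsUnit z)
    (h5 : ∀ (y : circleRing L.core a₀ ha1 ha2) (h : alpha2 M q (y : Fb (M * q)) ∈ Z),
      resZ ⟨alpha2 M q (y : Fb (M * q)), h⟩ =
        AdjoinRoot.of (vertBar q β ρ) (circleRes L.core a₀ ha1 ha2 y))
    (h6 : ∃ hθ : Ug M q g / alpha2 M q (algebraMap Kb (Fb (M * q)) a₀) ∈ Z,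
      resZ ⟨Ug M q g / alpha2 M q (algebraMap Kb (Fb (M * q)) a₀), hθ⟩ =
        AdjoinRoot.root (vertBar q β ρ)) :
    letI := algebraAlong (alpha2 M q)
    haveI := isScalarTower_along (alpha2 M q)
    VertComp L.core a₀ ha1 ha2 Z resZ (thetaVertTw M q g a₀) := by
  letI := algebraAlong (alpha2 M q)
  haveI := isScalarTower_along (alpha2 M q)
  obtain ⟨hθ, hθres⟩ := h6
  exact ⟨h1, h4, h5, hθ, hθres⟩

set_option maxHeartbeats 1600000 in
/-- **(SC-ZE), `f`-case: the cover sheet of `z e` at the point (`T = cb`, `Ũ = ū`)**, `cb ≠ 0`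
the class of `c / a₀`, for the cover `X₀(M q²) → X₀(M q)` along `α₂`, generator `U_g`. -/
theorem coverSheet_of_levels_tw (hx₂ : x₂ ∈ (L.level i).R) (hB : B.LiesOverPrime q)
    {ρ : ResidueField B} (hρ : ρ ≠ 0) [Fact (Irreducible (vertBar q β ρ))]
    {Z : ValuationSubring (Fb (M * q * q))} {resZ : Z →+* AdjoinRoot (vertBar q β ρ)}
    (HZ : letI := algebraAlong (alpha2 M q)
      haveI := isScalarTower_along (alpha2 M q)
      VertComp L.core a₀ ha1 ha2 Z resZ (thetaVertTw M q g a₀))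
    {c : Kb} (hc : B.valuation c = B.valuation a₀)
    {Q : Place (ResidueField B) (AdjoinRoot (vertBar q β ρ))}
    (hQ : Q.restrict (RatFunc (ResidueField B)) = placeAt (ResidueField B) (angRes B c a₀))
    {u : B} (hu : IsValueAt Q (AdjoinRoot.root (vertBar q β ρ)) (residue B u)) :
    letI := algebraAlong (alpha2 M q)
    haveI := isScalarTower_along (alpha2 M q)
    CoverSheet B (residue B) (circleRing L.core a₀ ha1 ha2) (circleRes L.core a₀ ha1 ha2)
      (placeAt (ResidueField B) (angRes B c a₀)) Z resZ Q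
      (discRing L.core a₀ (angRes B c a₀) ha1 ha2) (thetaVertTw M q g a₀) (psiVertTw M q g a₀)
      (psiVertTw M q g a₀) 1 u := by
  letI := algebraAlong (alpha2 M q)
  haveI := isScalarTower_along (alpha2 M q)
  haveI : CharP (ResidueField B) q := charP_residueField_of_liesOverPrime B hB
  obtain ⟨hmonic, hirr, hroot, hgen, hdeg, -⟩ :=
    psiVertTw_props hqM L a₀ ha1 ha2 ha₀ i hgc hP hx₁ hy hΨ hz hR hβ hb
  exact HZ.coverSheet hq.out.two_le hβ hρ hmonic hirr hroot hgen hdeg hc
    (psiVertTw_coeff_mem_discRing hqM L a₀ ha1 ha2 ha₀ i hgc hP hx₁ hy hΨ hz hR hβ hb hx₂ _) hQ hu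

set_option maxHeartbeats 1600000 in
/-- **(SC-ZE), `f`-case: the regular smooth chart of `z e` at the point (`T = cb`, `Ũ = ū`)**:
its tube is the sheet `θ_g ≡ u` over the residue disc of class `cb` of the critical circle
(the field `smooth` of the model `S″` at the ordinary points of `z e`, at EVERY supersingular
crossing). -/
def regChart_of_levels_tw (hx₂ : x₂ ∈ (L.level i).R) (hB : B.LiesOverPrime q)
    {ρ : ResidueField B} (hρ : ρ ≠ 0) [Fact (Irreducible (vertBar q β ρ))]
    {Z : ValuationSubring (Fb (M * q * q))} {resZ : Z →+* AdjoinRoot (vertBar q β ρ)}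
    (HZ : letI := algebraAlong (alpha2 M q)
      haveI := isScalarTower_along (alpha2 M q)
      VertComp L.core a₀ ha1 ha2 Z resZ (thetaVertTw M q g a₀))
    {c : Kb} (hc : B.valuation c = B.valuation a₀)
    {Q : Place (ResidueField B) (AdjoinRoot (vertBar q β ρ))}
    (hQ : Q.restrict (RatFunc (ResidueField B)) = placeAt (ResidueField B) (angRes B c a₀))
    {u : B} (hu : IsValueAt Q (AdjoinRoot.root (vertBar q β ρ)) (residue B u)) :
    letI := algebraAlong (alpha2 M q)
    haveI := isScalarTower_along (alpha2 M q)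
    haveI : Module.Finite (Fb (M * q)) (Fb (M * q * q)) :=
      Fermat.Agent.Hecke.finiteAlong_heckeAlphaBar (M * q) q
    RegChart B Z resZ Q
      (coverTube B (classDisc L.core a₀ (angRes B c a₀)) (thetaVertTw M q g a₀) u) := by
  letI := algebraAlong (alpha2 M q)
  haveI := isScalarTower_along (alpha2 M q)
  haveI : Module.Finite (Fb (M * q)) (Fb (M * q * q)) :=
    Fermat.Agent.Hecke.finiteAlong_heckeAlphaBar (M * q) q
  haveI : CharP (ResidueField B) q := charP_residueField_of_liesOverPrime B hB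
  have hp := psiVertTw_props hqM L a₀ ha1 ha2 ha₀ i hgc hP hx₁ hy hΨ hz hR hβ hb
  exact HZ.regChart hq.out.two_le hβ hρ hp.1 hp.2.1 hp.2.2.1 hp.2.2.2.1 hp.2.2.2.2.1 hc
    (psiVertTw_coeff_mem_discRing hqM L a₀ ha1 ha2 ha₀ i hgc hP hx₁ hy hΨ hz hR hβ hb hx₂ _) hQ hu
    (arch_of_isRankOne (Fermat.Agent.Val.isRankOne B hB))

end Main

end Fermat.Agent.BR3.VertSheet
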