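import Mathlib
import Fermat.Agent.BR3.VertSheet.Sheet
import Fermat.Agent.BR3.CoverK.Fibre
import Fermat.Agent.BR.AnnulusRot

/-!
# Program C (S36), node (SC-ZE), file 4: tubes, charts and fibres of `z e` at the generic points

Setting of `BR3/VertSheet/Sheet.lean`: `H : VertComp C a₀ ha1 ha2 Z resZ θ` (the conclusion of
`exists_vertComponent`), `Ψ` monic of degree `q = [F'' : F']` with root `θ` and coefficients in
the rings of the residue discs of the critical circle.

* `exists_restrict_eq_placeAt` : a point `Q` of the residue curve where `b̃ = β T` has neither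
  zero nor pole lies over `T = cb`, `cb ≠ 0` (bridge from `VertPtsDef.ord_eq_zero_of_ne`);
* `ptTube C a₀ θ Q` : **the tube of the point `Q`** (the sheet `θ ≡ Ũ(Q)` over the residue disc
  of class `T(Q)`), choice free; `ptTube_eq`, `restrict_mem_of_mem_ptTube`,
  `exists_of_mem_ptTube`, `ptTube_eq_empty` (special points have empty `ptTube`);
* `VertComp.irreducible_of_red`, `VertComp.gen_of_finrank` : the hypotheses `hirr`, `hgen` of
  `VertComp.coverSheet` are DERIVED (reduction `vertBar` irreducible; degrees);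
  `VertComp.coverSheet'`;
* `VertComp.regChartPt` (+`_t`), `VertComp.regChartOfOrd` : `RegChart A Z resZ Q (ptTube C a₀ θ Q)`
  at every generic point = the field `smZe` of `SDD.CaseInput` with `TZ e Q = ptTube …`;
* `VertComp.smoothFibre` (+`mem_smoothFibre_fib`) : `Fibre.SmoothFibre (classDisc C a₀ c̄) tube''`,
  the `q` points over `T = c̄` with their tubes partition the places over the residue disc
  (helper24's route 1 through `Dict.existsUnique_mem_coverTube`) = the `z e` part of (W4).
-/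

set_option autoImplicit false
set_option linter.unusedSectionVars false

noncomputable section

namespace Fermat.Agent.BR3.VertSheet

open AlgebraicCurve Polynomial IsLocalRing
open Fermat.Agent.Red Fermat.Agent.X0
open Fermat.Agent.BR.Circle Fermat.Agent.BR.S0 Fermat.Agent.BR.P1 Fermat.Agent.BR.InertiaRed
open Fermat.Agent.BR3.VertResidue Fermat.Agent.BR3.SubDisc Fermat.Agent.BR3.CoverK


/-! ### the generic points of the residue curve lie over `T = cb`, `cb ≠ 0` -/

section Bridge

variable {k : Type*} [Field k] [IsAlgClosed k] {q : ℕ} {β ρ : k}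
  [hP : Fact (Irreducible (vertBar q β ρ))]

/-- A point of the residue curve of `z e` where `b̃ = β T` has neither zero nor pole lies over
`T = cb` with `cb ≠ 0`. -/
theorem exists_restrict_eq_placeAt (hβ : β ≠ 0) {Q : Place k (AdjoinRoot (vertBar q β ρ))}
    (hQ0 : Q.ord (AdjoinRoot.of (vertBar q β ρ) (RatFunc.C β * RatFunc.X)) = 0) :
    ∃ cb : k, cb ≠ 0 ∧ Q.restrict (RatFunc k) = placeAt k cb := by
  have h1 := Q.ord_restrict (F := RatFunc k) (RatFunc.C β * RatFunc.X)
  rw [AdjoinRoot.algebraMap_eq, hQ0] at h1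
  have he : (0 : ℤ) < (Place.ramificationIndex (F := RatFunc k) Q : ℤ) := by
    exact_mod_cast Q.ramificationIndex_pos (F := RatFunc k)
  have h2 : (Q.restrict (RatFunc k)).ord (RatFunc.C β * RatFunc.X) = 0 := by
    rcases mul_eq_zero.mp h1.symm with h | h
    · omega
    · exact h
  have hC : (RatFunc.C β : RatFunc k) ≠ 0 := by
    rw [← RatFunc.algebraMap_eq_C]
    exact (_root_.map_ne_zero _).mpr hβ
  rw [Place.ord_mul _ hC RatFunc.X_ne_zero, ← RatFunc.algebraMap_eq_C,
    Place.ord_algebraMap, zero_add] at h2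
  refine Fermat.Agent.BR.AnnulusRed.exists_eq_placeAt_of_adicValuation_X ?_
  rw [AlgebraicCurve.Place.adicValuation_eq_exp_neg_ord _ RatFunc.X_ne_zero, h2, neg_zero,
    WithZero.exp_zero]

end Bridge

/-! ### the tube of a generic point of `z e` -/

section Tube

variable {K F' F'' : Type*} [Field K] [Field F'] [Field F''] [Algebra K F'] [Algebra K F'']
  [Algebra F' F''] [IsScalarTower K F' F''] [Algebra.IsIntegral F' F''] {A : ValuationSubring K}
  [IsAlgClosed (ResidueField A)] {T' : Set (Place K F')}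

variable {q : ℕ} {β ρ : ResidueField A} [hP : Fact (Irreducible (vertBar q β ρ))]

/-- **The tube of the point `Q` of the vertical component**: the sheet `θ ≡ Ũ(Q)` over the
residue disc of class `T(Q)` of the critical circle.  Empty unless `Q` lies over `T = cb` with
`cb ≠ 0`; independent of all choices (`ptTube_eq`). -/
def ptTube (C : AnnulusCore A T') (a₀ : K) (θ : F'')
    (Q : Place (ResidueField A) (AdjoinRoot (vertBar q β ρ))) : Set (Place K F'') :=
  {P | ∃ (c : K) (u : A), A.valuation c = A.valuation a₀ ∧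
    Q.restrict (RatFunc (ResidueField A)) = placeAt (ResidueField A) (angRes A c a₀) ∧
    IsValueAt Q (AdjoinRoot.root (vertBar q β ρ)) (residue A u) ∧
    P ∈ coverTube A (classDisc C a₀ (angRes A c a₀)) θ u}

variable {C : AnnulusCore A T'} {a₀ : K} {θ : F''}
  {Q : Place (ResidueField A) (AdjoinRoot (vertBar q β ρ))}

/-- The tube of `Q` in terms of any centre `c` of the disc and any lift `u` of `Ũ(Q)`. -/
theorem ptTube_eq {c : K} (hc : A.valuation c = A.valuation a₀)
    (hQ : Q.restrict (RatFunc (ResidueField A)) = placeAt (ResidueField A) (angRes A c a₀))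
    {u : A} (hu : IsValueAt Q (AdjoinRoot.root (vertBar q β ρ)) (residue A u)) :
    ptTube C a₀ θ Q = coverTube A (classDisc C a₀ (angRes A c a₀)) θ u := by
  ext P
  constructor
  · rintro ⟨c', u', -, hQ', hu', hP⟩
    have e1 : angRes A c' a₀ = angRes A c a₀ := placeAt_injective (hQ'.symm.trans hQ)
    have e2 : residue A u' = residue A u := hu'.unique hu
    rw [e1, Dict.coverTube_congr (π := residue A) e2] at hP
    exact hP
  · intro hP
    exact ⟨c, u, hc, hQ, hu, hP⟩

/-- The points of the tube of `Q` lie over the residue disc of class `T(Q)`. -/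
theorem restrict_mem_of_mem_ptTube {c : K}
    (hQ : Q.restrict (RatFunc (ResidueField A)) = placeAt (ResidueField A) (angRes A c a₀))
    {P : Place K F''} (hP : P ∈ ptTube C a₀ θ Q) :
    P.restrict F' ∈ classDisc C a₀ (angRes A c a₀) := by
  obtain ⟨c', u', -, hQ', -, hP'⟩ := hP
  have e1 : angRes A c' a₀ = angRes A c a₀ := placeAt_injective (hQ'.symm.trans hQ)
  rw [e1] at hP'
  exact hP'.1

/-- A point with a non-empty tube lies over `T = cb`, `cb ≠ 0`. -/
theorem exists_of_mem_ptTube (ha₀ : a₀ ≠ 0) {P : Place K F''} (hP : P ∈ ptTube C a₀ θ Q) :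
    ∃ cb : ResidueField A, cb ≠ 0 ∧
      Q.restrict (RatFunc (ResidueField A)) = placeAt (ResidueField A) cb := by
  obtain ⟨c, -, hc, hQ, -, -⟩ := hP
  exact ⟨_, angRes_ne_zero A ha₀ hc, hQ⟩

/-- The special points (zeros and poles of `b̃ = β T`) have empty tube. -/
theorem ptTube_eq_empty (ha₀ : a₀ ≠ 0) (hβ : β ≠ 0)
    (hQ0 : Q.ord (AdjoinRoot.of (vertBar q β ρ) (RatFunc.C β * RatFunc.X)) ≠ 0) :
    ptTube C a₀ θ Q = ∅ := by
  rw [Set.eq_empty_iff_forall_notMem]
  intro P hP
  obtain ⟨cb, hcb, hQ⟩ := exists_of_mem_ptTube ha₀ hP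
  apply hQ0
  have h1 := Q.ord_restrict (F := RatFunc (ResidueField A)) (RatFunc.C β * RatFunc.X)
  rw [AdjoinRoot.algebraMap_eq] at h1
  rw [h1, hQ]
  have hC : (RatFunc.C β : RatFunc (ResidueField A)) ≠ 0 := by
    rw [← RatFunc.algebraMap_eq_C]
    exact (_root_.map_ne_zero _).mpr hβ
  have h2 : (placeAt (ResidueField A) cb).ord (RatFunc.X : RatFunc (ResidueField A)) = 0 := by
    have h := ord_placeAt_X_sub_of_ne (a := cb) (b := 0) hcb
    rwa [map_zero, sub_zero] at h
  rw [Place.ord_mul _ hC RatFunc.X_ne_zero, ← RatFunc.algebraMap_eq_C,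
    Place.ord_algebraMap, zero_add, h2, mul_zero]

end Tube

section Sheet

variable {K F' F'' : Type*} [Field K] [Field F'] [Field F''] [Algebra K F'] [Algebra K F'']
  [Algebra F' F''] [IsScalarTower K F' F''] {A : ValuationSubring K}
  [IsAlgClosed (ResidueField A)] {T' : Set (Place K F')}

variable {q : ℕ} {β ρ : ResidueField A} [hP : Fact (Irreducible (vertBar q β ρ))]
  {C : AnnulusCore A T'} {a₀ : K} {ha1 : A.valuation C.thick < A.valuation a₀}
  {ha2 : A.valuation a₀ < 1} {Z : ValuationSubring F''}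
  {resZ : Z →+* AdjoinRoot (vertBar q β ρ)} {θ : F''} (H : VertComp C a₀ ha1 ha2 Z resZ θ)

namespace VertComp

include H

/-- **`Ψ` is irreducible** (derived): a monic polynomial over the circle ring whose reduction
`vertBar` is irreducible is irreducible over `F'`. -/
theorem irreducible_of_red (hq : 2 ≤ q) {Ψ : F'[X]}
    (hΨ : ∀ n, Ψ.coeff n ∈ circleRing C a₀ ha1 ha2) (hmonic : Ψ.Monic)
    (hroot : aeval θ Ψ = 0) (hdeg : Ψ.natDegree = q) : Irreducible Ψ := by
  have hred := H.red_eq_vertBar hq hΨ hmonic hroot hdeg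
  have hp₀m : (Ψ.toSubring (circleRing C a₀ ha1 ha2).toSubring (H.coeffs_subset hΨ)).Monic :=
    (monic_toSubring Ψ _ (H.coeffs_subset hΨ)).mpr hmonic
  have hirr₀ : Irreducible
      (Ψ.toSubring (circleRing C a₀ ha1 ha2).toSubring (H.coeffs_subset hΨ)) := by
    refine hp₀m.irreducible_of_irreducible_map (circleRes C a₀ ha1 ha2) _ ?_
    have e : (Ψ.toSubring (circleRing C a₀ ha1 ha2).toSubring (H.coeffs_subset hΨ)).map
        (circleRes C a₀ ha1 ha2) = H.red Ψ hΨ := rfl
    rw [e, hred]
    exact hP.out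
  have : IsFractionRing (circleRing C a₀ ha1 ha2).toSubring F' :=
    inferInstanceAs (IsFractionRing (circleRing C a₀ ha1 ha2) F')
  have : IsIntegrallyClosed (circleRing C a₀ ha1 ha2).toSubring :=
    inferInstanceAs (IsIntegrallyClosed (circleRing C a₀ ha1 ha2))
  have h2 := (hp₀m.irreducible_iff_irreducible_map_fraction_map (K := F')).mp hirr₀
  have e2 : (Ψ.toSubring (circleRing C a₀ ha1 ha2).toSubring (H.coeffs_subset hΨ)).map
      (algebraMap (circleRing C a₀ ha1 ha2).toSubring F') = Ψ :=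
    map_toSubring Ψ _ (H.coeffs_subset hΨ)
  rwa [e2] at h2

/-- **`θ` generates `F''` over `F'`** (derived from the degrees). -/
theorem gen_of_finrank [FiniteDimensional F' F''] (hq : 2 ≤ q) {Ψ : F'[X]}
    (hΨ : ∀ n, Ψ.coeff n ∈ circleRing C a₀ ha1 ha2) (hmonic : Ψ.Monic)
    (hroot : aeval θ Ψ = 0) (hdeg : Ψ.natDegree = q) (hfin : Module.finrank F' F'' = q)
    (y : F'') : ∃ p : F'[X], aeval θ p = y := by
  have hirr := H.irreducible_of_red hq hΨ hmonic hroot hdeg
  have hmin : minpoly F' θ = Ψ := (minpoly.eq_of_irreducible_of_monic hirr hroot hmonic).symm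
  have htop : IntermediateField.adjoin F' {θ} = ⊤ :=
    (Field.primitive_element_iff_minpoly_natDegree_eq F' θ).mpr (by rw [hmin, hdeg, hfin])
  have hy : y ∈ IntermediateField.adjoin F' {θ} := by rw [htop]; trivial
  have halg : IsAlgebraic F' θ := Algebra.IsAlgebraic.isAlgebraic θ
  rw [← IntermediateField.mem_toSubalgebra,
    IntermediateField.adjoin_simple_toSubalgebra_of_isAlgebraic halg,
    Algebra.adjoin_singleton_eq_range_aeval] at hy
  exact hy


/-! ### the sheets and charts with the derived hypotheses -/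

/-- `VertComp.coverSheet` with irreducibility and generation derived. -/
theorem coverSheet' [FiniteDimensional F' F''] [CharP (ResidueField A) q] (hq : 2 ≤ q)
    (hβ : β ≠ 0) (hρ : ρ ≠ 0) {Ψ : F'[X]} (hmonic : Ψ.Monic) (hroot : aeval θ Ψ = 0)
    (hdeg : Ψ.natDegree = q) (hfin : Module.finrank F' F'' = q)
    {c : K} (hc : A.valuation c = A.valuation a₀)
    (hΨR : ∀ n, Ψ.coeff n ∈ discRing C a₀ (angRes A c a₀) ha1 ha2)
    {Q : Place (ResidueField A) (AdjoinRoot (vertBar q β ρ))}
    (hQ : Q.restrict (RatFunc (ResidueField A)) = placeAt (ResidueField A) (angRes A c a₀))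
    {u : A} (hu : IsValueAt Q (AdjoinRoot.root (vertBar q β ρ)) (residue A u)) :
    CoverSheet A (residue A) (circleRing C a₀ ha1 ha2) (circleRes C a₀ ha1 ha2)
      (placeAt (ResidueField A) (angRes A c a₀)) Z resZ Q
      (discRing C a₀ (angRes A c a₀) ha1 ha2) θ Ψ Ψ 1 u :=
  H.coverSheet hq hβ hρ hmonic
    (H.irreducible_of_red hq (fun n => (hΨR n).1) hmonic hroot hdeg) hroot
    (H.gen_of_finrank hq (fun n => (hΨR n).1) hmonic hroot hdeg hfin) hdeg hc hΨR hQ hu

/-- **The regular chart of `z e` on the tube `ptTube Q` of a point over `T = c̄ ≠ 0`.** -/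
def regChartPt [IsAlgClosed K] [FiniteDimensional F' F''] [Algebra.IsSeparable F' F'']
    [CharP (ResidueField A) q] (hq : 2 ≤ q) (hβ : β ≠ 0) (hρ : ρ ≠ 0)
    {Ψ : F'[X]} (hmonic : Ψ.Monic) (hroot : aeval θ Ψ = 0) (hdeg : Ψ.natDegree = q)
    (hfin : Module.finrank F' F'' = q) {c : K} (hc : A.valuation c = A.valuation a₀)
    (hΨR : ∀ n, Ψ.coeff n ∈ discRing C a₀ (angRes A c a₀) ha1 ha2)
    {Q : Place (ResidueField A) (AdjoinRoot (vertBar q β ρ))}
    (hQ : Q.restrict (RatFunc (ResidueField A)) = placeAt (ResidueField A) (angRes A c a₀))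
    {u : A} (hu : IsValueAt Q (AdjoinRoot.root (vertBar q β ρ)) (residue A u))
    (harch : ∀ a c : K, A.valuation a < 1 → c ≠ 0 →
      ∃ N : ℕ, A.valuation a ^ N ≤ A.valuation c) :
    RegChart A Z resZ Q (ptTube C a₀ θ Q) :=
  Fibre.regChartOfEq (ptTube_eq hc hQ hu)
    (H.regChart hq hβ hρ hmonic
      (H.irreducible_of_red hq (fun n => (hΨR n).1) hmonic hroot hdeg) hroot
      (H.gen_of_finrank hq (fun n => (hΨR n).1) hmonic hroot hdeg hfin) hdeg hc hΨR hQ hu harch)

theorem regChartPt_t [IsAlgClosed K] [FiniteDimensional F' F''] [Algebra.IsSeparable F' F'']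
    [CharP (ResidueField A) q] (hq : 2 ≤ q) (hβ : β ≠ 0) (hρ : ρ ≠ 0)
    {Ψ : F'[X]} (hmonic : Ψ.Monic) (hroot : aeval θ Ψ = 0) (hdeg : Ψ.natDegree = q)
    (hfin : Module.finrank F' F'' = q) {c : K} (hc : A.valuation c = A.valuation a₀)
    (hΨR : ∀ n, Ψ.coeff n ∈ discRing C a₀ (angRes A c a₀) ha1 ha2)
    {Q : Place (ResidueField A) (AdjoinRoot (vertBar q β ρ))}
    (hQ : Q.restrict (RatFunc (ResidueField A)) = placeAt (ResidueField A) (angRes A c a₀))
    {u : A} (hu : IsValueAt Q (AdjoinRoot.root (vertBar q β ρ)) (residue A u))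
    (harch : ∀ a c : K, A.valuation a < 1 → c ≠ 0 →
      ∃ N : ℕ, A.valuation a ^ N ≤ A.valuation c) :
    (H.regChartPt hq hβ hρ hmonic hroot hdeg hfin hc hΨR hQ hu harch).chart.t =
      algebraMap F' F'' (discParam C a₀ c) := by
  rw [regChartPt, Fibre.regChartOfEq_t]
  rfl

omit H in
/-- Every class `cb ≠ 0` is the angular residue of a point of the circle. -/
theorem exists_angRes_eq (ha₀ : a₀ ≠ 0) {cb : ResidueField A} (hcb : cb ≠ 0) :
    ∃ c : K, A.valuation c = A.valuation a₀ ∧ angRes A c a₀ = cb := by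
  obtain ⟨w, hw⟩ := residue_surjective cb
  have hw1 : A.valuation (w : K) = 1 := by
    by_contra hne
    have hlt : A.valuation (w : K) < 1 := lt_of_le_of_ne (A.valuation_le_one w) hne
    apply hcb
    rw [← hw, residue_eq_zero_iff]
    exact (A.valuation_lt_one_iff _).mpr hlt
  refine ⟨(w : K) * a₀, by rw [map_mul, hw1, one_mul], ?_⟩
  unfold angRes
  rw [mul_div_assoc, div_self ha₀, mul_one, resOf_of_mem A w.2]
  exact hw

/-- The lifts attached to a generic point `Q` of the residue curve: a centre `c` of the disc of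
class `T(Q)` and a lift `u` of `Ũ(Q)`. -/
theorem exists_lifts [CharP (ResidueField A) q] (hq : 2 ≤ q) (hβ : β ≠ 0) (hρ : ρ ≠ 0)
    {Q : Place (ResidueField A) (AdjoinRoot (vertBar q β ρ))}
    (hQ0 : Q.ord (AdjoinRoot.of (vertBar q β ρ) (RatFunc.C β * RatFunc.X)) = 0) :
    ∃ (c : K) (u : A), A.valuation c = A.valuation a₀ ∧
      Q.restrict (RatFunc (ResidueField A)) = placeAt (ResidueField A) (angRes A c a₀) ∧
      IsValueAt Q (AdjoinRoot.root (vertBar q β ρ)) (residue A u) := by
  obtain ⟨cb, hcb, hQ⟩ := exists_restrict_eq_placeAt hβ hQ0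
  obtain ⟨c, hc, hcc⟩ := exists_angRes_eq (A := A) (gauge_ne_zero ha1) hcb
  obtain ⟨ub, -, hub⟩ := exists_root_of_restrict hq hβ hρ hcb hQ
  obtain ⟨u, hu⟩ := residue_surjective ub
  exact ⟨c, u, hc, by rw [hcc]; exact hQ, by rw [hu]; exact hub⟩

/-- **(SC-ZE) The smooth chart of `z e` at every generic point** (`b̃ = β T` has neither zero nor
pole at `Q`; by `VertPtsDef.ord_eq_zero_of_ne` these are all the points except `ptZBar`, `ptIBar`
and the Kummer points): the field `smZe` of `SDD.CaseInput` with `TZ e Q = ptTube C a₀ θ Q`. -/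
def regChartOfOrd [IsAlgClosed K] [FiniteDimensional F' F''] [Algebra.IsSeparable F' F'']
    [CharP (ResidueField A) q] (hq : 2 ≤ q) (hβ : β ≠ 0) (hρ : ρ ≠ 0)
    {Ψ : F'[X]} (hmonic : Ψ.Monic) (hroot : aeval θ Ψ = 0) (hdeg : Ψ.natDegree = q)
    (hfin : Module.finrank F' F'' = q)
    (hΨD : ∀ cb : ResidueField A, cb ≠ 0 → ∀ n, Ψ.coeff n ∈ discRing C a₀ cb ha1 ha2)
    (harch : ∀ a c : K, A.valuation a < 1 → c ≠ 0 →
      ∃ N : ℕ, A.valuation a ^ N ≤ A.valuation c)
    {Q : Place (ResidueField A) (AdjoinRoot (vertBar q β ρ))}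
    (hQ0 : Q.ord (AdjoinRoot.of (vertBar q β ρ) (RatFunc.C β * RatFunc.X)) = 0) :
    RegChart A Z resZ Q (ptTube C a₀ θ Q) :=
  H.regChartPt hq hβ hρ hmonic hroot hdeg hfin
    (H.exists_lifts hq hβ hρ hQ0).choose_spec.choose_spec.1
    (hΨD _ (angRes_ne_zero A (gauge_ne_zero ha1)
      (H.exists_lifts hq hβ hρ hQ0).choose_spec.choose_spec.1))
    (H.exists_lifts hq hβ hρ hQ0).choose_spec.choose_spec.2.1
    (H.exists_lifts hq hβ hρ hQ0).choose_spec.choose_spec.2.2 harch


/-! ### the fibre over a residue disc of the circle -/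

omit H in
/-- A lift to `A` of an element of the residue field. -/
def liftRes (ub : ResidueField A) : A := (residue_surjective ub).choose

omit H in
theorem residue_liftRes (ub : ResidueField A) : residue A (liftRes ub) = ub :=
  (residue_surjective ub).choose_spec

/-- The tube of the point `Ũ = ub` over `T = c̄` is the sheet `θ ≡ ub`. -/
theorem ptTube_ordinaryPoint [Algebra.IsIntegral F' F''] [CharP (ResidueField A) q] (hq : 2 ≤ q)
    (hβ : β ≠ 0) (hρ : ρ ≠ 0) {c : K} (hc : A.valuation c = A.valuation a₀)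
    (ub : ResidueField A) (hub : (specPoly q β ρ (angRes A c a₀)).IsRoot ub) :
    ptTube C a₀ θ (ordinaryPoint hq hβ hρ (angRes_ne_zero A (gauge_ne_zero ha1) hc) ub hub) =
      coverTube A (classDisc C a₀ (angRes A c a₀)) θ (liftRes ub) :=
  ptTube_eq hc (ordinaryPoint_restrict hq hβ hρ _ ub hub)
    (by rw [residue_liftRes]; exact isValueAt_ordinaryPoint hq hβ hρ _ ub hub)

open scoped Classical in
/-- **(W4, `z e`) The fibre of the vertical component over the residue disc of class `c̄ ≠ 0` of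
the critical circle**: the `q` points `Ũ = ub`, `ub` a root of the specialisation at `T = c̄`;
their tubes `ptTube` partition the places over the disc.  `ι` embeds the points of the residue
curve into the index type of the tubes of the cover (`Q ↦ ⟨ze e, Q⟩`). -/
def smoothFibre [FiniteDimensional F' F''] [CharP (ResidueField A) q] (hq : 2 ≤ q)
    (hβ : β ≠ 0) (hρ : ρ ≠ 0) {Ψ : F'[X]} (hmonic : Ψ.Monic) (hroot : aeval θ Ψ = 0)
    (hdeg : Ψ.natDegree = q) (hfin : Module.finrank F' F'' = q)
    {c : K} (hc : A.valuation c = A.valuation a₀)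
    (hΨR : ∀ n, Ψ.coeff n ∈ discRing C a₀ (angRes A c a₀) ha1 ha2)
    {β'' : Type*} (tube'' : β'' → Set (Place K F''))
    (ι : Place (ResidueField A) (AdjoinRoot (vertBar q β ρ)) → β'')
    (htube : ∀ Q : Place (ResidueField A) (AdjoinRoot (vertBar q β ρ)),
      Q.restrict (RatFunc (ResidueField A)) = placeAt (ResidueField A) (angRes A c a₀) →
      tube'' (ι Q) = ptTube C a₀ θ Q)
    (hdeg'' : ∀ P : Place K F'', P.deg = 1) :
    Fibre.SmoothFibre (classDisc C a₀ (angRes A c a₀)) tube'' where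
  fib := (specPoly q β ρ (angRes A c a₀)).roots.toFinset.attach.image fun ub =>
    ι (ordinaryPoint hq hβ hρ (angRes_ne_zero A (gauge_ne_zero ha1) hc) ub.1
      ((mem_roots_specPoly hq).mp ub.2))
  sub := fun x hx P hP => by
    obtain ⟨ub, -, rfl⟩ := Finset.mem_image.mp hx
    rw [htube _ (ordinaryPoint_restrict hq hβ hρ _ ub.1 _)] at hP
    exact restrict_mem_of_mem_ptTube (ordinaryPoint_restrict hq hβ hρ _ ub.1 _) hP
  disj := fun x hx y hy P hPx hPy => by
    obtain ⟨ub, -, rfl⟩ := Finset.mem_image.mp hx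
    obtain ⟨ub', -, rfl⟩ := Finset.mem_image.mp hy
    rw [htube _ (ordinaryPoint_restrict hq hβ hρ _ ub.1 _),
      H.ptTube_ordinaryPoint hq hβ hρ hc] at hPx
    rw [htube _ (ordinaryPoint_restrict hq hβ hρ _ ub'.1 _),
      H.ptTube_ordinaryPoint hq hβ hρ hc] at hPy
    by_contra hne
    refine Dict.not_mem_coverTube_of_ne (π := residue A) (constHyp_circle C a₀ ha1 ha2).pi_zero
      (fun h => hne ?_) hPx hPy
    rw [residue_liftRes, residue_liftRes] at h
    have : ub = ub' := Subtype.ext h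
    rw [this]
  exh := fun P hP => by
    obtain ⟨i, hi, -⟩ := Dict.existsUnique_mem_coverTube (subDiscRegChart C a₀ c ha1 ha2 hc)
      (constHyp_circle C a₀ ha1 ha2) hmonic hΨR hroot
      (ι := {ub // ub ∈ (specPoly q β ρ (angRes A c a₀)).roots.toFinset})
      (fun i => liftRes i.1)
      (fun i j hij => by
        simp only [residue_liftRes] at hij
        exact Subtype.ext hij)
      (fun i => Dict.isRoot_redPoly (subDiscRegChart C a₀ c ha1 ha2 hc)
        (H.coverSheet' hq hβ hρ hmonic hroot hdeg hfin hc hΨR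
          (ordinaryPoint_restrict hq hβ hρ (angRes_ne_zero A (gauge_ne_zero ha1) hc) i.1
            ((mem_roots_specPoly hq).mp i.2))
          (by rw [residue_liftRes]; exact isValueAt_ordinaryPoint hq hβ hρ _ i.1 _))
        (constHyp_circle C a₀ ha1 ha2))
      (by rw [Fintype.card_coe, card_roots_specPoly hq hβ hρ
        (angRes_ne_zero A (gauge_ne_zero ha1) hc), hdeg])
      (hdeg'' P) hP
    refine ⟨_, Finset.mem_image.mpr ⟨i, Finset.mem_attach _ _, rfl⟩, ?_⟩
    rw [htube _ (ordinaryPoint_restrict hq hβ hρ _ i.1 _), H.ptTube_ordinaryPoint hq hβ hρ hc]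
    exact hi


open scoped Classical in
/-- The points of the fibre are the images of the points of the residue curve over `T = c̄`. -/
theorem mem_smoothFibre_fib [FiniteDimensional F' F''] [CharP (ResidueField A) q] (hq : 2 ≤ q)
    (hβ : β ≠ 0) (hρ : ρ ≠ 0) {Ψ : F'[X]} (hmonic : Ψ.Monic) (hroot : aeval θ Ψ = 0)
    (hdeg : Ψ.natDegree = q) (hfin : Module.finrank F' F'' = q)
    {c : K} (hc : A.valuation c = A.valuation a₀)
    (hΨR : ∀ n, Ψ.coeff n ∈ discRing C a₀ (angRes A c a₀) ha1 ha2)
    {β'' : Type*} (tube'' : β'' → Set (Place K F''))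
    (ι : Place (ResidueField A) (AdjoinRoot (vertBar q β ρ)) → β'')
    (htube : ∀ Q : Place (ResidueField A) (AdjoinRoot (vertBar q β ρ)),
      Q.restrict (RatFunc (ResidueField A)) = placeAt (ResidueField A) (angRes A c a₀) →
      tube'' (ι Q) = ptTube C a₀ θ Q)
    (hdeg'' : ∀ P : Place K F'', P.deg = 1) (x : β'') :
    x ∈ (H.smoothFibre hq hβ hρ hmonic hroot hdeg hfin hc hΨR tube'' ι htube hdeg'').fib ↔
      ∃ Q : Place (ResidueField A) (AdjoinRoot (vertBar q β ρ)),
        Q.restrict (RatFunc (ResidueField A)) = placeAt (ResidueField A) (angRes A c a₀) ∧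
        ι Q = x := by
  have hcb := angRes_ne_zero A (gauge_ne_zero ha1) hc
  constructor
  · intro hx
    obtain ⟨ub, -, rfl⟩ := Finset.mem_image.mp hx
    exact ⟨_, ordinaryPoint_restrict hq hβ hρ hcb ub.1 _, rfl⟩
  · rintro ⟨Q, hQ, rfl⟩
    obtain ⟨ub, hub, hv⟩ := exists_root_of_restrict hq hβ hρ hcb hQ
    refine Finset.mem_image.mpr ⟨⟨ub, (mem_roots_specPoly hq).mpr hub⟩, Finset.mem_attach _ _, ?_⟩
    congr 1
    exact eq_of_isValueAt hq hβ hρ hcb (ordinaryPoint_restrict hq hβ hρ hcb ub hub) hQ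
      (isValueAt_ordinaryPoint hq hβ hρ hcb ub hub) hv

end VertComp

end Sheet

end Fermat.Agent.BR3.VertSheet
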