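import Mathlib
import Fermat.Agent.BR3.VertSheet.Fibre

/-!
# Program C (S36), node (SC-ZE), file 5: the tubes `ptTube` over the whole critical circle

Setting of `BR3/VertSheet/Fibre.lean`.  The tubes `ptTube C a₀ θ Q` of the generic points `Q` of
the vertical component PARTITION the places over the critical circle `|u| = |a₀|`:

* `eq_of_mem_ptTube` : (disj) a place in `ptTube Q` and `ptTube Q'` forces `Q = Q'`
  (the hypothesis `disjZZ` of `SDD.Partition.Under.of_kinds` for `e = e'`);
* `VertComp.exists_mem_ptTube` : (exh) every place of `F''` over a place of the circle lies in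
  `ptTube Q` for a generic point `Q` (the hypothesis `hCirc` of `SDD.Partition.cover_sref`);
* `mem_classDisc_of_mem_ptTube` : (sub) in the form `P.restrict F' ∈ classDisc C a₀ cb` for
  `Q.restrict = placeAt cb`; `ubar_of_mem_ptTube`.
-/

set_option autoImplicit false
set_option linter.unusedSectionVars false

noncomputable section

namespace Fermat.Agent.BR3.VertSheet

open AlgebraicCurve Polynomial IsLocalRing
open Fermat.Agent.Red Fermat.Agent.X0
open Fermat.Agent.BR.Circle Fermat.Agent.BR.S0 Fermat.Agent.BR.P1 Fermat.Agent.BR.InertiaRed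
open Fermat.Agent.BR.AnnulusRed
open Fermat.Agent.BR3.VertResidue Fermat.Agent.BR3.SubDisc Fermat.Agent.BR3.CoverK

section Tube

variable {K F' F'' : Type*} [Field K] [Field F'] [Field F''] [Algebra K F'] [Algebra K F'']
  [Algebra F' F''] [IsScalarTower K F' F''] [Algebra.IsIntegral F' F''] {A : ValuationSubring K}
  [IsAlgClosed (ResidueField A)] {T' : Set (Place K F')}

variable {q : ℕ} {β ρ : ResidueField A} [hP : Fact (Irreducible (vertBar q β ρ))]
  {C : AnnulusCore A T'} {a₀ : K} {θ : F''}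
  {Q Q' : Place (ResidueField A) (AdjoinRoot (vertBar q β ρ))}

/-- (sub) The places of the tube of `Q` lie over the circle, with angular component `T(Q)`. -/
theorem ubar_of_mem_ptTube {cb : ResidueField A}
    (hQ : Q.restrict (RatFunc (ResidueField A)) = placeAt (ResidueField A) cb)
    {P : Place K F''} (hP : P ∈ ptTube C a₀ θ Q) :
    P.restrict F' ∈ T' ∧ A.valuation (evalAt (P.restrict F') C.u) = A.valuation a₀ ∧
      ubar A C.u a₀ (P.restrict F') = cb := by
  obtain ⟨c', u', -, hQ', -, hP'⟩ := hP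
  have e1 : angRes A c' a₀ = cb := placeAt_injective (hQ'.symm.trans hQ)
  rw [e1] at hP'
  exact hP'.1

/-- (sub) The places of the tube of `Q` lie over the residue disc of class `T(Q)`. -/
theorem mem_classDisc_of_mem_ptTube {cb : ResidueField A}
    (hQ : Q.restrict (RatFunc (ResidueField A)) = placeAt (ResidueField A) cb)
    {P : Place K F''} (hP : P ∈ ptTube C a₀ θ Q) : P.restrict F' ∈ classDisc C a₀ cb :=
  ubar_of_mem_ptTube hQ hP

/-- **(disj) The tubes of two distinct points of the vertical component are disjoint.** -/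
theorem eq_of_mem_ptTube [CharP (ResidueField A) q] (hq : 2 ≤ q) (hβ : β ≠ 0) (hρ : ρ ≠ 0)
    (ha₀ : a₀ ≠ 0) {P : Place K F''} (hP : P ∈ ptTube C a₀ θ Q) (hP' : P ∈ ptTube C a₀ θ Q') :
    Q = Q' := by
  obtain ⟨c, u, hc, hQ, hu, h1⟩ := hP
  obtain ⟨c', u', hc', hQ', hu', h1'⟩ := hP'
  have hcb : angRes A c a₀ ≠ 0 := angRes_ne_zero A ha₀ hc
  have e1 : angRes A c' a₀ = angRes A c a₀ := h1'.1.2.2.symm.trans h1.1.2.2
  rw [e1] at hQ' h1'
  have e2 : residue A u = residue A u' := by
    by_contra hne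
    exact Dict.not_mem_coverTube_of_ne (π := residue A)
      (fun a ha => (residue_eq_zero_iff _).mpr ((A.valuation_lt_one_iff _).mpr ha)) hne h1 h1'
  rw [← e2] at hu'
  exact eq_of_isValueAt hq hβ hρ hcb hQ hQ' hu hu'

end Tube

section Sheet

variable {K F' F'' : Type*} [Field K] [Field F'] [Field F''] [Algebra K F'] [Algebra K F'']
  [Algebra F' F''] [IsScalarTower K F' F''] {A : ValuationSubring K}
  [IsAlgClosed (ResidueField A)] {T' : Set (Place K F')}

variable {q : ℕ} {β ρ : ResidueField A} [hP : Fact (Irreducible (vertBar q β ρ))]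
  {C : AnnulusCore A T'} {a₀ : K} {ha1 : A.valuation C.thick < A.valuation a₀}
  {ha2 : A.valuation a₀ < 1} {Z : ValuationSubring F''}
  {resZ : Z →+* AdjoinRoot (vertBar q β ρ)} {θ : F''} (H : VertComp C a₀ ha1 ha2 Z resZ θ)

namespace VertComp

include H

/-- **(exh) Every place over the critical circle lies in the tube of a generic point of the
vertical component.** -/
theorem exists_mem_ptTube [FiniteDimensional F' F''] [CharP (ResidueField A) q] (hq : 2 ≤ q)
    (hβ : β ≠ 0) (hρ : ρ ≠ 0) {Ψ : F'[X]} (hmonic : Ψ.Monic) (hroot : aeval θ Ψ = 0)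
    (hdeg : Ψ.natDegree = q) (hfin : Module.finrank F' F'' = q)
    (hΨD : ∀ cb : ResidueField A, cb ≠ 0 → ∀ n, Ψ.coeff n ∈ discRing C a₀ cb ha1 ha2)
    (hdeg'' : ∀ P : Place K F'', P.deg = 1) {P : Place K F''} (hPT : P.restrict F' ∈ T')
    (hv : A.valuation (evalAt (P.restrict F') C.u) = A.valuation a₀) :
    ∃ Q : Place (ResidueField A) (AdjoinRoot (vertBar q β ρ)),
      Q.restrict (RatFunc (ResidueField A)) =
        placeAt (ResidueField A) (ubar A C.u a₀ (P.restrict F')) ∧
      Q.ord (AdjoinRoot.of (vertBar q β ρ) (RatFunc.C β * RatFunc.X)) = 0 ∧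
      P ∈ ptTube C a₀ θ Q := by
  have ha₀ : a₀ ≠ 0 := gauge_ne_zero ha1
  have hcb : angRes A (evalAt (P.restrict F') C.u) a₀ ≠ 0 := angRes_ne_zero A ha₀ hv
  have hmem : P.restrict F' ∈ classDisc C a₀ (angRes A (evalAt (P.restrict F') C.u) a₀) :=
    ⟨hPT, hv, rfl⟩
  obtain ⟨Q, hQfib, hPQ⟩ := (H.smoothFibre hq hβ hρ hmonic hroot hdeg hfin hv (hΨD _ hcb)
    (fun Q => ptTube C a₀ θ Q) id (fun _ _ => rfl) hdeg'').exh P hmem
  obtain ⟨Q₁, hQ₁, rfl⟩ := (H.mem_smoothFibre_fib hq hβ hρ hmonic hroot hdeg hfin hv (hΨD _ hcb)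
    (fun Q => ptTube C a₀ θ Q) id (fun _ _ => rfl) hdeg'' Q).mp hQfib
  refine ⟨Q₁, hQ₁, ?_, hPQ⟩
  have h1 := ord_map hq hβ hρ hcb hQ₁ (RatFunc.C β * RatFunc.X)
  rw [AdjoinRoot.algebraMap_eq] at h1
  rw [h1]
  have hC : (RatFunc.C β : RatFunc (ResidueField A)) ≠ 0 := by
    rw [← RatFunc.algebraMap_eq_C]
    exact (_root_.map_ne_zero _).mpr hβ
  have h2 : (placeAt (ResidueField A) (angRes A (evalAt (P.restrict F') C.u) a₀)).ord
      (RatFunc.X : RatFunc (ResidueField A)) = 0 := by
    have h := ord_placeAt_X_sub_of_ne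
      (a := angRes A (evalAt (P.restrict F') C.u) a₀) (b := 0) hcb
    rwa [map_zero, sub_zero] at h
  rw [Place.ord_mul _ hC RatFunc.X_ne_zero, ← RatFunc.algebraMap_eq_C,
    Place.ord_algebraMap, zero_add, h2]

end VertComp

end Sheet

end Fermat.Agent.BR3.VertSheet
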