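import Mathlib
import Fermat.Agent.BR3.VertAllParam
import Fermat.Agent.BR3.VertSheet.ModularTw
import Fermat.Agent.BR3.VertSheet.FibreCirc

/-!
# Program C (S36), node (SC-ZE), layer B: the sheets of `z e` at EVERY supersingular crossing

`L := annulusLevels_modular_final B hB hqM hne e` the level data of the tube of the crossing `e` of
main's two-component model of `X₀(M q)`; `P : SSParam.IsSSParam B hB hqM e g g' g''` a twisted
triple with simple zeros at `e` (the single input of `VertAllParam.exists_vertComponent_of_param`);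
`a₀` a gauge of the critical circle, `|a₀|^(q+1) = |q|`.

* `psiVertTw_data_all` : **the data of the vertical polynomial** `Ψ_g = psiVertTw M q g a₀` of
  `θ_g = thetaVertTw M q g a₀` along `α₂`: monic, root `θ_g`, degree `q`, coefficients in the ring
  of EVERY residue disc of the critical circle (replay of layer B of `VertAll`);
* `finrank_alpha2` : `[F₂ : F₁] = q` as a `Module.finrank`;
* for every `H : VertComp L.core a₀ ha1 ha2 Z resZ (thetaVertTw M q g a₀)` (the conclusion of
  `exists_vertComponent_of_param_gauge`, helper26's `ZeData.vertComp`):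
  `regChartOfOrd_all` (`smZe`: the regular chart on `ptTube L.core a₀ θ_g Q` at every generic
  point), `exists_mem_ptTube_all` (the tubes `ptTube` exhaust the places over the critical
  circle; disjointness and (sub) are the generic `eq_of_mem_ptTube`, `ubar_of_mem_ptTube` of
  `BR3/VertSheet/FibreCirc.lean`).
-/

set_option autoImplicit false
set_option linter.unusedSectionVars false
set_option linter.style.haveILetI false
set_option synthInstance.maxHeartbeats 400000

noncomputable section

/- S36 build-time patch: file-local shortcut instances. They only shorten instance search;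
each is the instance that the search finds anyway (reducible, same terms after unfolding). -/
local instance (priority := 100000) Fermat.Agent.BR3.FastInst.instAlgFullC_VertSheet_ModularAll
    {k : Type*} [Field k] (N : ℕ) :
    Algebra k ↥(ModularCurve.modularFunctionFieldFullC k N) := inferInstance
local instance (priority := 100000) Fermat.Agent.BR3.FastInst.instFieldFullC_VertSheet_ModularAll
    {k : Type*} [Field k] (N : ℕ) :
    Field ↥(ModularCurve.modularFunctionFieldFullC k N) := inferInstance
local instance (priority := 100000) Fermat.Agent.BR3.FastInst.instAlgLaurent_VertSheet_ModularAll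
    {k : Type*} [Field k] : Algebra k (LaurentSeries k) := inferInstance


namespace Fermat.Agent.BR3.VertSheet

open Polynomial ModularCurve AlgebraicCurve IsLocalRing
open Fermat.Agent.X0 Fermat.Agent.Val Fermat.Agent.Red Fermat.Agent.Hecke
open Fermat.Agent.BR.SS Fermat.Agent.BR.Refine Fermat.Agent.BR.TwoVal Fermat.Agent.BR.TwoValInst
open Fermat.Agent.BR.ResGen
open Fermat.Agent.BR.Circle Fermat.Agent.BR.S0 Fermat.Agent.BR.S0.RedModular
open Fermat.Agent.BR.S0.PointDict Fermat.Agent.BR.S0.AnnulusChartOfLevels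
open Fermat.Agent.BR.S0.Modular Fermat.Agent.BR.S0.ThickFinal
open Fermat.Agent.BR.Inst.Levels Fermat.Agent.BR.Inst.NormalModel Fermat.Agent.BR.Inst.LevelsInst
open Fermat.Agent.BR.Inst.SpecIso
open Fermat.Agent.BR.Inst.AnnulusInstFinal Fermat.Agent.BR.Final
open Fermat.Agent.BR.P1 Fermat.Agent.BR.InertiaRed
open Fermat.Agent.BR3.FibreProd Fermat.Agent.BR3.VertResidue Fermat.Agent.BR3.HeckePoly
open Fermat.Agent.BR3.HeckePolyKron Fermat.Agent.BR3.HeckePolyModel
open Fermat.Agent.BR3.HeckePolyDescent
open Fermat.Agent.BR3.VertCircleMod Fermat.Agent.BR3.VertLevelMem Fermat.Agent.BR3.VertFinal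
open Fermat.Agent.BR3.VertTube Fermat.Agent.BR3.VertAllLevels Fermat.Agent.BR3.VertAll
open Fermat.Agent.BR3.VertAllParam
open Fermat.Agent.BR3.ThickOneFinal Fermat.Agent.BR3.ThickOneUnit Fermat.Agent.BR3.SSParam
open Fermat.Agent.BR3.SubDisc Fermat.Agent.BR3.CoverK

variable {M q : ℕ} [NeZero M] [hq : Fact q.Prime]
variable (B : ValuationSubring Kb) (hB : B.LiesOverPrime q) (hqM : ¬ q ∣ M)

/-- `[F₂ : F₁] = q` along `α₂`, as a `Module.finrank`. -/
theorem finrank_alpha2 :
    letI := algebraAlong (alpha2 M q)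
    Module.finrank (Fb (M * q)) (Fb (M * q * q)) = q := by
  letI := algebraAlong (alpha2 M q)
  exact finrankAlong_alpha2

variable [IsAlgClosed (ResidueField B)]
  (hne : Nonempty (Crossing (chartDataModular B hB hqM)))
  (e : Crossing (chartDataModular B hB hqM))

variable [CharP (ResidueField B) q]

set_option maxHeartbeats 1600000 in
/-- **The data of the vertical polynomial at EVERY supersingular crossing**: `Ψ_g` is monic of
degree `q` with root `θ_g = U_g / α₂ a₀` and coefficients in the ring of every residue disc of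
the critical circle of the tube of `e`. -/
theorem psiVertTw_data_all (h2 : nuTwo M = 0) (h3 : nuThree M = 0)
    {g g' g'' : Fb M} (P : IsSSParam B hB hqM e g g' g'') (a₀ : Kb)
    (ha1 : B.valuation (annulusLevels_modular_final B hB hqM hne e).core.thick <
      B.valuation a₀) (ha2 : B.valuation a₀ < 1)
    (ha₀ : B.valuation a₀ ^ (q + 1) = B.valuation (q : Kb)) :
    letI := algebraAlong (alpha2 M q)
    (psiVertTw M q g a₀).Monic ∧
      aeval (thetaVertTw M q g a₀) (psiVertTw M q g a₀) = 0 ∧
      (psiVertTw M q g a₀).natDegree = q ∧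
      ∀ (cb : ResidueField B) (n : ℕ), (psiVertTw M q g a₀).coeff n ∈
        discRing (annulusLevels_modular_final B hB hqM hne e).core a₀ cb ha1 ha2 := by
  letI := algebraAlong (alpha2 M q)
  have hg := P.hg
  have hg' := P.hg'
  have hg'' := P.hg''
  obtain ⟨Ψ₁, hΨ, hP⟩ := exists_kronecker_PAt_q B hB hqM hg hg' hg'' P.untwist P.twist
  have hgO := mem_OM_of_mem_CMod (levelHyp_base B hB hqM) hg
  have hg'O := mem_OM_of_mem_CMod (levelHyp_base B hB hqM) hg'
  have hg''O := mem_OM_of_mem_CMod (levelHyp_base B hB hqM) hg''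
  have hxO := vg_mem_O1 B hB hqM (mem_OM_of_mem_CMod_base B hB hqM P.hg)
    (mem_OM_of_mem_CMod_base B hB hqM P.hg')
  have hyO := ug_mem_O2 B hB hqM (mem_OM_of_mem_CMod_base B hB hqM P.hg)
    (mem_OM_of_mem_CMod_base B hB hqM P.hg'')
  have hxord := P.hxord hxO
  have hyord := P.hyord hyO
  have hαR := alpha_mem_level B hB hqM hne e hg
  have hβ'R := beta_mem_level B hB hqM hne e hg'
  have hβ''R := beta_mem_level B hB hqM hne e hg''
  have hΨR : ∀ k, Ψ₁.coeff k ∈
      ((annulusLevels_modular_final B hB hqM hne e).level (∅ : Finset Kb)).R :=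
    fun k => CQ0_le_level B hB hqM hne e (hΨ k)
  have hx : heckeAlphaBar Kb M q g - (heckeBetaBar Kb M q g') ^ q ∈
      ((annulusLevels_modular_final B hB hqM hne e).level (∅ : Finset Kb)).R :=
    sub_mem hαR (pow_mem hβ'R q)
  have hy : heckeBetaBar Kb M q g'' - (heckeAlphaBar Kb M q g) ^ q ∈
      ((annulusLevels_modular_final B hB hqM hne e).level (∅ : Finset Kb)).R :=
    sub_mem hβ''R (pow_mem hαR q)
  have hz : Ψ₁.eval (heckeAlphaBar Kb M q g) ∈
      ((annulusLevels_modular_final B hB hqM hne e).level (∅ : Finset Kb)).R :=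
    eval_mem_of_coeff_mem _ hΨR hαR
  have hxyz := vg_mul_ug (M := M) (q := q) hqM hP
  have hx₂ : heckeAlphaBar Kb M q g - (heckeBetaBar Kb M q g') ^ q ∈
      (compW B hB hqM 1).O.nonunits := vg_mem_nonunits_O2 B hB hqM hgO hg'O P.untwist
  have hy₁ : heckeBetaBar Kb M q g'' - (heckeAlphaBar Kb M q g) ^ q ∈
      (compW B hB hqM 0).O.nonunits := ug_mem_nonunits_O1 B hB hqM hgO hg''O P.twist
  have hR := isUnit_of_simple_zeros_final B hB hqM hne e h2 h3 hx hy hz hx₂ hy₁ hxO hyO
    hxord hyord hxyz
  have hq0 : ((q : ℕ) : Kb) ≠ 0 := Nat.cast_ne_zero.mpr hq.out.ne_zero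
  obtain ⟨β, hβ, hred⟩ := exists_isRed_inv_smul_of_levels
    (branchData_modular_final B hB hqM hne e) a₀ ha1 ∅ hx hy hz hR hq0 hxyz hxord
  have hp := psiVertTw_props hqM (annulusLevels_modular_final B hB hqM hne e) a₀ ha1 ha2 ha₀ ∅
    P.nonconst hP hβ'R hαR hΨR hz hR hβ hred
  exact ⟨hp.1, hp.2.2.1, hp.2.2.2.2.1, fun cb n =>
    psiVertTw_coeff_mem_discRing hqM (annulusLevels_modular_final B hB hqM hne e) a₀ ha1 ha2 ha₀ ∅
      P.nonconst hP hβ'R hαR hΨR hz hR hβ hred hβ''R cb n⟩

/-! ### the charts, the exhaustion and the fibres at the crossing `e` -/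

section Terms

variable (h2 : nuTwo M = 0) (h3 : nuThree M = 0) {g g' g'' : Fb M}
  (P : IsSSParam B hB hqM e g g' g'') (a₀ : Kb)
  (ha1 : B.valuation (annulusLevels_modular_final B hB hqM hne e).core.thick < B.valuation a₀)
  (ha2 : B.valuation a₀ < 1) (ha₀ : B.valuation a₀ ^ (q + 1) = B.valuation (q : Kb))
  {β ρ : ResidueField B} (hβ : β ≠ 0) (hρ : ρ ≠ 0) [Fact (Irreducible (vertBar q β ρ))]
  {Z : ValuationSubring (Fb (M * q * q))} {resZ : Z →+* AdjoinRoot (vertBar q β ρ)}
  (H : letI := algebraAlong (alpha2 M q)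
    haveI := isScalarTower_along (alpha2 M q)
    VertComp (annulusLevels_modular_final B hB hqM hne e).core a₀ ha1 ha2 Z resZ
      (thetaVertTw M q g a₀))

set_option maxHeartbeats 1600000 in
/-- **(SC-ZE) `smZe` at EVERY supersingular crossing**: the regular chart of the vertical
component on the tube `ptTube` of every generic point `Q` (`b̃ = β T` has neither zero nor pole
at `Q`). -/
def regChartOfOrd_all {Q : Place (ResidueField B) (AdjoinRoot (vertBar q β ρ))}
    (hQ0 : Q.ord (AdjoinRoot.of (vertBar q β ρ) (RatFunc.C β * RatFunc.X)) = 0) :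
    letI := algebraAlong (alpha2 M q)
    haveI := isScalarTower_along (alpha2 M q)
    haveI : Module.Finite (Fb (M * q)) (Fb (M * q * q)) :=
      Fermat.Agent.Hecke.finiteAlong_heckeAlphaBar (M * q) q
    RegChart B Z resZ Q
      (ptTube (annulusLevels_modular_final B hB hqM hne e).core a₀ (thetaVertTw M q g a₀) Q) := by
  letI := algebraAlong (alpha2 M q)
  haveI := isScalarTower_along (alpha2 M q)
  haveI : Module.Finite (Fb (M * q)) (Fb (M * q * q)) :=
    Fermat.Agent.Hecke.finiteAlong_heckeAlphaBar (M * q) q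
  have hp := psiVertTw_data_all B hB hqM hne e h2 h3 P a₀ ha1 ha2 ha₀
  exact H.regChartOfOrd hq.out.two_le hβ hρ hp.1 hp.2.1 hp.2.2.1 (finrank_alpha2 (M := M) (q := q))
    (fun cb _ n => hp.2.2.2 cb n) (arch_of_isRankOne (Fermat.Agent.Val.isRankOne B hB)) hQ0

include h2 h3 P ha₀ hβ hρ H in
set_option maxHeartbeats 1600000 in
/-- **(W4, `z e`) The tubes `ptTube` exhaust the places over the critical circle** of the tube of
`e` (the hypothesis `hCirc` of `SDD.Partition.cover_sref`). -/
theorem exists_mem_ptTube_all {P'' : Place Kb (Fb (M * q * q))}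
    (hPT : letI := algebraAlong (alpha2 M q)
      haveI : Module.Finite (Fb (M * q)) (Fb (M * q * q)) :=
        Fermat.Agent.Hecke.finiteAlong_heckeAlphaBar (M * q) q
      P''.restrict (Fb (M * q)) ∈ tube (setupFinal B hB hqM hne) e)
    (hv : letI := algebraAlong (alpha2 M q)
      haveI : Module.Finite (Fb (M * q)) (Fb (M * q * q)) :=
        Fermat.Agent.Hecke.finiteAlong_heckeAlphaBar (M * q) q
      B.valuation (evalAt (P''.restrict (Fb (M * q)))
        (annulusLevels_modular_final B hB hqM hne e).core.u) = B.valuation a₀) :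
    ∃ Q : Place (ResidueField B) (AdjoinRoot (vertBar q β ρ)),
      Q.ord (AdjoinRoot.of (vertBar q β ρ) (RatFunc.C β * RatFunc.X)) = 0 ∧
      letI := algebraAlong (alpha2 M q)
      haveI : Module.Finite (Fb (M * q)) (Fb (M * q * q)) :=
        Fermat.Agent.Hecke.finiteAlong_heckeAlphaBar (M * q) q
      P'' ∈ ptTube (annulusLevels_modular_final B hB hqM hne e).core a₀
        (thetaVertTw M q g a₀) Q := by
  letI := algebraAlong (alpha2 M q)
  haveI := isScalarTower_along (alpha2 M q)
  haveI : Module.Finite (Fb (M * q)) (Fb (M * q * q)) :=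
    Fermat.Agent.Hecke.finiteAlong_heckeAlphaBar (M * q) q
  have hp := psiVertTw_data_all B hB hqM hne e h2 h3 P a₀ ha1 ha2 ha₀
  obtain ⟨Q, -, hQ0, hPQ⟩ := H.exists_mem_ptTube hq.out.two_le hβ hρ hp.1 hp.2.1 hp.2.2.1
    (finrank_alpha2 (M := M) (q := q)) (fun cb _ n => hp.2.2.2 cb n)
    (fun P => Fermat.Agent.BR.S0.RedHyp.place_deg_eq_one P) hPT hv
  exact ⟨Q, hQ0, hPQ⟩

end Terms

end Fermat.Agent.BR3.VertSheet
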