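import Mathlib
import Fermat.Agent.BR3.VertSheet.FibreCirc
import Fermat.Agent.BR3.SDD.PartitionSRef
import Fermat.Agent.BR3.VertPtsDef
import Fermat.Agent.BR3.VertPtsInj

/-!
# Program C (S36), node (ZE-PKG): the `z e` column of `SDD.CaseInput`, in the shapes of
`BR3/SDD/PartitionKinds.lean` / `BR3/SDD/TubeFam.lean`

* special points: `restrict_eq_placeInfty_of_ord_neg`, `restrict_eq_placeAt_zero_of_ord_pos`,
  `restrict_ptZBar` (`= placeAt k 0`: `hW`), `restrict_ptIBar`, `restrict_ptKBar`,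
  `restrict_ptKBar₂` (`= placeInfty k`: `hT`, `hK`), `ord_ptZBar_ne_zero`, … (a generic point,
  `ord_Q b̃ = 0`, is none of the special points: `ne_ptZBar_of_ord`, `ne_ptIBar_of_ord`,
  `ne_ptKBar_of_ord`, `ne_ptKBar₂_of_ord`);
* `eq_ptZBar_of_restrict` (**`complZe`** of `SDD.Partition.under_of_raw_sref`: `ptZBar` is the only
  point over `T = 0`), `ord_eq_zero_of_ne_bar` (`q` odd, family form), `ord_eq_zero_of_ne_bar₂`
  (`q = 2`): a point different from the special points is generic (`ord_Q b̃ = 0`), so that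
  `smZe e Q hW hT hK := (regChartOfOrd(_all) … (ord_eq_zero_of_ne_bar …)).chart`;
* over the one-level refinement `sref I a₀ hadm` of a semistable setup `S₀` (`I.ch e` the annulus
  chart of the node `e`, `C_e := (I.ch e).toCore`), with `uZe Q := Q.restrict (RatFunc k)`:
  `sref_r_of_mem_ptTube` (**`subZe`** on the raw smooth tubes `ptTube C_e (a₀ e) θ Q`),
  `subZe_raw` (the same in the raw shape of `under_of_raw_sref`),
  `VertComp.exists_mem_ptTube_of_circle` (**`hCirc`**), and `eq_of_mem_ptTube` of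
  `BR3/VertSheet/FibreCirc.lean` is **`disjZZ`**.
-/

set_option autoImplicit false
set_option linter.unusedSectionVars false

noncomputable section

/- S36 build-time patch: file-local shortcut instances. They only shorten instance search;
each is the instance that the search finds anyway (reducible, same terms after unfolding). -/
local instance (priority := 100000) Fermat.Agent.BR3.FastInst.instAlgFullC_VertSheet_ZeAll
    {k : Type*} [Field k] (N : ℕ) :
    Algebra k ↥(ModularCurve.modularFunctionFieldFullC k N) := inferInstance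
local instance (priority := 100000) Fermat.Agent.BR3.FastInst.instFieldFullC_VertSheet_ZeAll
    {k : Type*} [Field k] (N : ℕ) :
    Field ↥(ModularCurve.modularFunctionFieldFullC k N) := inferInstance
local instance (priority := 100000) Fermat.Agent.BR3.FastInst.instAlgLaurent_VertSheet_ZeAll
    {k : Type*} [Field k] : Algebra k (LaurentSeries k) := inferInstance


namespace Fermat.Agent.BR3.VertSheet

open AlgebraicCurve Polynomial IsLocalRing
open Fermat.Agent.Red Fermat.Agent.X0 Fermat.Agent.BR.SS Fermat.Agent.BR.Refine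
open Fermat.Agent.BR.Circle Fermat.Agent.BR.S0 Fermat.Agent.BR.P1 Fermat.Agent.BR.InertiaRed
open Fermat.Agent.BR.AnnulusRed Fermat.Agent.BR3.CircleN Fermat.Agent.BR3.SRef
open Fermat.Agent.BR3.VertResidue Fermat.Agent.BR3.VertResField Fermat.Agent.BR3.VertPtsDef
open Fermat.Agent.BR3.SubDisc Fermat.Agent.BR3.CoverK Fermat.Agent.BR3.SDD.Partition

/-! ### the special points over `T = 0`, `T = ∞` -/

section Special

variable {k : Type*} [Field k] [IsAlgClosed k] {q : ℕ} {β ρ : k}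
  [hP : Fact (Irreducible (vertBar q β ρ))]

theorem ord_of_bX (hβ : β ≠ 0) (Q : Place k (AdjoinRoot (vertBar q β ρ))) :
    Q.ord (AdjoinRoot.of (vertBar q β ρ) (RatFunc.C β * RatFunc.X)) =
      (Place.ramificationIndex (F := RatFunc k) Q : ℤ) *
        (Q.restrict (RatFunc k)).ord (RatFunc.X : RatFunc k) := by
  have h1 := Q.ord_restrict (F := RatFunc k) (RatFunc.C β * RatFunc.X)
  rw [AdjoinRoot.algebraMap_eq] at h1
  have hC : (RatFunc.C β : RatFunc k) ≠ 0 := by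
    rw [← RatFunc.algebraMap_eq_C]
    exact (_root_.map_ne_zero _).mpr hβ
  rw [h1, Place.ord_mul _ hC RatFunc.X_ne_zero, ← RatFunc.algebraMap_eq_C,
    Place.ord_algebraMap, zero_add]

/-- A pole of `b̃ = β T` lies over `T = ∞`. -/
theorem restrict_eq_placeInfty_of_ord_neg (hβ : β ≠ 0)
    {Q : Place k (AdjoinRoot (vertBar q β ρ))}
    (h : Q.ord (AdjoinRoot.of (vertBar q β ρ) (RatFunc.C β * RatFunc.X)) < 0) :
    Q.restrict (RatFunc k) = placeInfty k := by
  apply eq_placeInfty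
  rw [ord_of_bX hβ] at h
  have he : (0 : ℤ) < (Place.ramificationIndex (F := RatFunc k) Q : ℤ) := by
    exact_mod_cast Q.ramificationIndex_pos (F := RatFunc k)
  by_contra hcon
  push Not at hcon
  have := mul_nonneg he.le hcon
  omega

/-- A zero of `b̃ = β T` lies over `T = 0`. -/
theorem restrict_eq_placeAt_zero_of_ord_pos (hβ : β ≠ 0)
    {Q : Place k (AdjoinRoot (vertBar q β ρ))}
    (h : 0 < Q.ord (AdjoinRoot.of (vertBar q β ρ) (RatFunc.C β * RatFunc.X))) :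
    Q.restrict (RatFunc k) = placeAt k 0 := by
  apply eq_placeAt_of_ord_pos
  rw [map_zero, sub_zero]
  rw [ord_of_bX hβ] at h
  have he : (0 : ℤ) < (Place.ramificationIndex (F := RatFunc k) Q : ℤ) := by
    exact_mod_cast Q.ramificationIndex_pos (F := RatFunc k)
  by_contra hcon
  push Not at hcon
  have := mul_nonpos_of_nonneg_of_nonpos he.le hcon
  omega

variable (q) [hqF : Fact q.Prime] [CharP k q]

set_option maxHeartbeats 1600000 in
theorem ord_ptZBar (hβ : β ≠ 0) (hρ : ρ ≠ 0) :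
    (ptZBar q hβ hρ).ord (AdjoinRoot.of (vertBar q β ρ) (RatFunc.C β * RatFunc.X)) = q :=
  ord_b_ptZ q hρ (vertBar_hb (q := q) (ρ := ρ) hβ) (vertBar_heq hβ) (vertBar_hgen hβ)

set_option maxHeartbeats 1600000 in
theorem ord_ptIBar (hβ : β ≠ 0) (hρ : ρ ≠ 0) :
    (ptIBar q hβ hρ).ord (AdjoinRoot.of (vertBar q β ρ) (RatFunc.C β * RatFunc.X)) = -1 :=
  ord_b_ptI q hρ (vertBar_hb (q := q) (ρ := ρ) hβ) (vertBar_heq hβ) (vertBar_hgen hβ)

set_option maxHeartbeats 1600000 in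
theorem ord_ptKBar (hq2 : q ≠ 2) (hβ : β ≠ 0) (hρ : ρ ≠ 0) {c : k} (hc : c ^ 2 = ρ) :
    (ptKBar q hq2 hβ hρ c hc).ord (AdjoinRoot.of (vertBar q β ρ) (RatFunc.C β * RatFunc.X)) =
      -(((q - 1) / 2 : ℕ) : ℤ) :=
  ord_b_ptK q hq2 hρ (vertBar_hb (q := q) (ρ := ρ) hβ) (vertBar_heq hβ) (vertBar_hgen hβ) hc

theorem half_pos (hq2 : q ≠ 2) : (1 : ℤ) ≤ (((q - 1) / 2 : ℕ) : ℤ) := by
  have h1 : 1 ≤ (q - 1) / 2 := by
    obtain ⟨j, hj⟩ := hqF.out.odd_of_ne_two hq2
    have := hqF.out.two_le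
    omega
  exact_mod_cast h1

/-- **`hW`**: the point `zW e = ptZBar` lies over `T = 0`. -/
theorem restrict_ptZBar (hβ : β ≠ 0) (hρ : ρ ≠ 0) :
    (ptZBar q hβ hρ).restrict (RatFunc k) = placeAt k 0 :=
  restrict_eq_placeAt_zero_of_ord_pos hβ (by
    rw [ord_ptZBar q hβ hρ]
    exact_mod_cast hqF.out.pos)

/-- **`hT`**: the point `zT e = ptIBar` lies over `T = ∞`. -/
theorem restrict_ptIBar (hβ : β ≠ 0) (hρ : ρ ≠ 0) :
    (ptIBar q hβ hρ).restrict (RatFunc k) = placeInfty k :=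
  restrict_eq_placeInfty_of_ord_neg hβ (by rw [ord_ptIBar q hβ hρ]; norm_num)

/-- **`hK`**: the Kummer points `zK e s = ptKBar c` lie over `T = ∞`. -/
theorem restrict_ptKBar (hq2 : q ≠ 2) (hβ : β ≠ 0) (hρ : ρ ≠ 0) {c : k} (hc : c ^ 2 = ρ) :
    (ptKBar q hq2 hβ hρ c hc).restrict (RatFunc k) = placeInfty k :=
  restrict_eq_placeInfty_of_ord_neg hβ (by
    rw [ord_ptKBar q hq2 hβ hρ hc]
    have := half_pos q hq2
    omega)

/-- a generic point is not `ptZBar` -/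
theorem ne_ptZBar_of_ord (hβ : β ≠ 0) (hρ : ρ ≠ 0) {Q : Place k (AdjoinRoot (vertBar q β ρ))}
    (hQ0 : Q.ord (AdjoinRoot.of (vertBar q β ρ) (RatFunc.C β * RatFunc.X)) = 0) :
    Q ≠ ptZBar q hβ hρ := by
  rintro rfl
  rw [ord_ptZBar q hβ hρ] at hQ0
  exact hqF.out.ne_zero (by exact_mod_cast hQ0)

/-- a generic point is not `ptIBar` -/
theorem ne_ptIBar_of_ord (hβ : β ≠ 0) (hρ : ρ ≠ 0) {Q : Place k (AdjoinRoot (vertBar q β ρ))}
    (hQ0 : Q.ord (AdjoinRoot.of (vertBar q β ρ) (RatFunc.C β * RatFunc.X)) = 0) :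
    Q ≠ ptIBar q hβ hρ := by
  rintro rfl
  rw [ord_ptIBar q hβ hρ] at hQ0
  norm_num at hQ0

/-- a generic point is not a Kummer point -/
theorem ne_ptKBar_of_ord (hq2 : q ≠ 2) (hβ : β ≠ 0) (hρ : ρ ≠ 0) {c : k} (hc : c ^ 2 = ρ)
    {Q : Place k (AdjoinRoot (vertBar q β ρ))}
    (hQ0 : Q.ord (AdjoinRoot.of (vertBar q β ρ) (RatFunc.C β * RatFunc.X)) = 0) :
    Q ≠ ptKBar q hq2 hβ hρ c hc := by
  rintro rfl
  rw [ord_ptKBar q hq2 hβ hρ hc] at hQ0
  have := half_pos q hq2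
  omega

set_option maxHeartbeats 1600000 in
/-- **`complZe`**: `ptZBar` is the only point of `z e` over `T = 0`. -/
theorem eq_ptZBar_of_restrict (hβ : β ≠ 0) (hρ : ρ ≠ 0)
    {Q : Place k (AdjoinRoot (vertBar q β ρ))}
    (hQ : Q.restrict (RatFunc k) = placeAt k 0) : Q = ptZBar q hβ hρ := by
  refine (ord_b_pos_iff q hρ (vertBar_hb (q := q) (ρ := ρ) hβ) (vertBar_heq hβ)
    (vertBar_hgen hβ) Q).mp ?_
  rw [ord_of_bX hβ, hQ]
  have he : (0 : ℤ) < (Place.ramificationIndex (F := RatFunc k) Q : ℤ) := by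
    exact_mod_cast Q.ramificationIndex_pos (F := RatFunc k)
  have h1 : (placeAt k 0).ord (RatFunc.X : RatFunc k) = 1 := by
    have h := ord_placeAt_X_sub (k := k) 0
    rwa [map_zero, sub_zero] at h
  rw [h1, mul_one]
  exact he

set_option maxHeartbeats 1600000 in
/-- **exhaustion of the special points (`q` odd), family form**: a point different from `ptZBar`,
`ptIBar` and the Kummer points `ptKBar (c s)` (`c` exhausts the square roots of `ρ`) is generic. -/
theorem ord_eq_zero_of_ne_bar (hq2 : q ≠ 2) (hβ : β ≠ 0) (hρ : ρ ≠ 0) {KP : Type*} (c : KP → k)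
    (hc : ∀ s, c s ^ 2 = ρ) (hsurj : ∀ c' : k, c' ^ 2 = ρ → ∃ s, c s = c')
    {Q : Place k (AdjoinRoot (vertBar q β ρ))} (hz : Q ≠ ptZBar q hβ hρ)
    (hi : Q ≠ ptIBar q hβ hρ) (hk : ∀ s, Q ≠ ptKBar q hq2 hβ hρ (c s) (hc s)) :
    Q.ord (AdjoinRoot.of (vertBar q β ρ) (RatFunc.C β * RatFunc.X)) = 0 :=
  (Fermat.Agent.BR3.VertPtsInj.ord_eq_zero_of_ne_family q hq2 hρ
    (vertBar_hb (q := q) (ρ := ρ) hβ) (vertBar_heq hβ) (vertBar_hgen hβ) c hc hsurj hz hi hk).1

end Special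

section SpecialTwo

variable {k : Type*} [Field k] [IsAlgClosed k] [CharP k 2] {β ρ : k}
  [hP : Fact (Irreducible (vertBar 2 β ρ))]

set_option maxHeartbeats 1600000 in
theorem ord_ptKBar₂ (hβ : β ≠ 0) (hρ : ρ ≠ 0) :
    (ptKBar₂ hβ hρ).ord (AdjoinRoot.of (vertBar 2 β ρ) (RatFunc.C β * RatFunc.X)) = -1 :=
  ord_b_ptK₂ hρ (vertBar_hb (q := 2) (ρ := ρ) hβ) (vertBar_heq_two hβ) (vertBar_hgen hβ)

/-- **`hK`, `q = 2`**: the Kummer point lies over `T = ∞`. -/
theorem restrict_ptKBar₂ (hβ : β ≠ 0) (hρ : ρ ≠ 0) :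
    (ptKBar₂ hβ hρ).restrict (RatFunc k) = placeInfty k :=
  restrict_eq_placeInfty_of_ord_neg hβ (by rw [ord_ptKBar₂ hβ hρ]; norm_num)

theorem ne_ptKBar₂_of_ord (hβ : β ≠ 0) (hρ : ρ ≠ 0) {Q : Place k (AdjoinRoot (vertBar 2 β ρ))}
    (hQ0 : Q.ord (AdjoinRoot.of (vertBar 2 β ρ) (RatFunc.C β * RatFunc.X)) = 0) :
    Q ≠ ptKBar₂ hβ hρ := by
  rintro rfl
  rw [ord_ptKBar₂ hβ hρ] at hQ0
  norm_num at hQ0

set_option maxHeartbeats 1600000 in
/-- **exhaustion of the special points (`q = 2`)**. -/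
theorem ord_eq_zero_of_ne_bar₂ (hβ : β ≠ 0) (hρ : ρ ≠ 0)
    {Q : Place k (AdjoinRoot (vertBar 2 β ρ))}
    (hz : Q ≠ ptZBar (hq := ⟨Nat.prime_two⟩) 2 hβ hρ)
    (hi : Q ≠ ptIBar (hq := ⟨Nat.prime_two⟩) 2 hβ hρ) (hk : Q ≠ ptKBar₂ hβ hρ) :
    Q.ord (AdjoinRoot.of (vertBar 2 β ρ) (RatFunc.C β * RatFunc.X)) = 0 :=
  (ord_eq_zero_of_ne₂ hρ (vertBar_hb (q := 2) (ρ := ρ) hβ) (vertBar_heq_two hβ)
    (vertBar_hgen hβ) hz hi hk).1

end SpecialTwo

/-! ### over the one-level refinement `S'ref` -/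

section SRefFrame

variable {K : Type} {F : Type*} [Field K] [Field F] [Algebra K F]
  {A : ValuationSubring K} [IsAlgClosed (ResidueField A)]
  {ι₀ : Type} {Ft₀ : ι₀ → Type} [∀ v, Field (Ft₀ v)] [∀ v, Algebra (ResidueField A) (Ft₀ v)]
  {ν₀ : Type}
  {S₀ : SemistableSetup (F := F) A (residue A) ι₀ Ft₀ ν₀}
  (I : CircleInputsN S₀) (a₀ : ν₀ → K) (hadm : ∀ e, I.adm e (a₀ e))
  {F'' : Type*} [Field F''] [Algebra K F''] [Algebra F F''] [IsScalarTower K F F'']

variable {q : ℕ} {β ρ : ResidueField A} [hP : Fact (Irreducible (vertBar q β ρ))]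

/-- **`subZe`** on the raw smooth tubes of the vertical component: the places of the tube of the
point `Q` of `z e` reduce in `S'ref` to the point `T = T(Q)` of the exceptional component of `e`
(`uZe e Q = Q.restrict (RatFunc k)`). -/
theorem sref_r_of_mem_ptTube [Algebra.IsIntegral F F''] (e : ν₀) {θ : F''}
    {Q : Place (ResidueField A) (AdjoinRoot (vertBar q β ρ))} {P : Place K F''}
    (hP : P ∈ ptTube (I.ch e).toCore (a₀ e) θ Q) :
    (sref I a₀ hadm).r (P.restrict F) =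
      (⟨exc I a₀ hadm e, Q.restrict (RatFunc (ResidueField A))⟩ : (oneLevel I a₀ hadm).PtR) := by
  obtain ⟨cb, hcb, hQ⟩ := exists_of_mem_ptTube (gauge_ne_zero (hadm e).1) hP
  rw [hQ]
  obtain ⟨h1, h2, h3⟩ := ubar_of_mem_ptTube hQ hP
  exact (sref_r_eq_exc_placeAt_iff I a₀ hadm hcb).mpr ⟨⟨h1, h2⟩, h3⟩

/-- **`hCirc`**: every place of the cover over the critical circle of `e` lies in the raw smooth
tube of a generic point of the vertical component. -/
theorem VertComp.exists_mem_ptTube_of_circle [FiniteDimensional F F''] (e : ν₀)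
    {Z : ValuationSubring F''} {resZ : Z →+* AdjoinRoot (vertBar q β ρ)} {θ : F''}
    (H : VertComp (I.ch e).toCore (a₀ e) (hadm e).1 (hadm e).2 Z resZ θ)
    [CharP (ResidueField A) q] (hq : 2 ≤ q) (hβ : β ≠ 0) (hρ : ρ ≠ 0) {Ψ : F[X]}
    (hmonic : Ψ.Monic) (hroot : aeval θ Ψ = 0) (hdeg : Ψ.natDegree = q)
    (hfin : Module.finrank F F'' = q)
    (hΨD : ∀ cb : ResidueField A, cb ≠ 0 → ∀ n, Ψ.coeff n ∈
      discRing (I.ch e).toCore (a₀ e) cb (hadm e).1 (hadm e).2)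
    (hdeg'' : ∀ P : Place K F'', P.deg = 1) {P : Place K F''}
    (hP : P.restrict F ∈ circle I a₀ e) :
    ∃ Q : Place (ResidueField A) (AdjoinRoot (vertBar q β ρ)),
      Q.ord (AdjoinRoot.of (vertBar q β ρ) (RatFunc.C β * RatFunc.X)) = 0 ∧
      P ∈ ptTube (I.ch e).toCore (a₀ e) θ Q := by
  obtain ⟨Q, -, h0, hPQ⟩ := H.exists_mem_ptTube hq hβ hρ hmonic hroot hdeg hfin hΨD hdeg''
    hP.1 hP.2
  exact ⟨Q, h0, hPQ⟩

include hadm in
/-- **`subZe`, raw shape of `SDD.Partition.under_of_raw_sref`**: the places of the raw smooth tube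
of `Q` lie over the critical circle of `e`, in the residue disc of class `c = T(Q) ≠ 0`. -/
theorem subZe_raw [Algebra.IsIntegral F F''] (e : ν₀) {θ : F''}
    {Q : Place (ResidueField A) (AdjoinRoot (vertBar q β ρ))} {P : Place K F''}
    (hP : P ∈ ptTube (I.ch e).toCore (a₀ e) θ Q) :
    ∃ c : ResidueField A, c ≠ 0 ∧
      Q.restrict (RatFunc (ResidueField A)) = placeAt (ResidueField A) c ∧
      P.restrict F ∈ circle I a₀ e ∧ ubar A (I.ch e).u (a₀ e) (P.restrict F) = c := by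
  obtain ⟨cb, hcb, hQ⟩ := exists_of_mem_ptTube (gauge_ne_zero (hadm e).1) hP
  obtain ⟨h1, h2, h3⟩ := ubar_of_mem_ptTube hQ hP
  exact ⟨cb, hcb, hQ, ⟨h1, h2⟩, h3⟩

end SRefFrame

end Fermat.Agent.BR3.VertSheet
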